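/-
Program C (S55), package C9b (helper70): from finite-level class field theory to `G_S`.
LAYER 1 — two purely abelian-group diagram chases (Mathlib only).

`GSChaseStatement` : the six-term piece `P¹ → E² → Q² → P² → E³ → Q³` of the long exact sequence
of `0 → E_S → Q_S^× → P_S → 0` (`E_S` = `S`-units of `ℚ_S`, `P_S = Q_S^×/E_S`), with
`Qⁿ = Hⁿ(G_S(F), Q_S^×)` carrying local invariants `inv v` at all finite places `v` of `F` and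
`P²` carrying `lam v` at the places outside `S`.  Conclusions for `E² = H²(G_S(F), E_S)`,
`E³ = H³(G_S(F), E_S)`:
 (ES1) Hasse principle on the `p`-primary part, (ES2) existence, (ES3) reciprocity,
 (ES4) `E³` has no `p`-torsion.

`KummerChaseStatement` : the Kummer sequence `0 → μ_p → E_S → E_S → 0`; conclusions for
`M² = H²(G_S(F), μ_p)`, `M³ = H³(G_S(F), μ_p)`:
 (K1) `M³ = 0`, (K2) reciprocity, (K3) existence, (K4) Hasse principle modulo `δ(H¹(E_S))`.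
-/
import Mathlib

set_option autoImplicit false

namespace Fermat.Agent.S55.H70

/-- `x` is killed by a power of `p`. -/
def IsPPrimary (p : ℕ) {A : Type*} [AddCommGroup A] (x : A) : Prop := ∃ k : ℕ, p ^ k • x = 0

/-- LAYER 1a: the chase for `0 → E_S → Q_S^× → P_S → 0`. -/
def GSChaseStatement : Prop :=
  ∀ (p : ℕ), p.Prime → ∀ (T : Type) [AddCommGroup T]
    (P1 E2 Q2 P2 E3 Q3 : Type) [AddCommGroup P1] [AddCommGroup E2] [AddCommGroup Q2]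
    [AddCommGroup P2] [AddCommGroup E3] [AddCommGroup Q3]
    (d1 : P1 →+ E2) (i2 : E2 →+ Q2) (π2 : Q2 →+ P2) (d2 : P2 →+ E3) (i3 : E3 →+ Q3)
    (_hE2 : ∀ x, i2 x = 0 → ∃ c, d1 c = x)
    (_hQ2 : ∀ y, π2 y = 0 → ∃ x, i2 x = y) (_hQ2' : ∀ x, π2 (i2 x) = 0)
    (_hP2' : ∀ y, d2 (π2 y) = 0)
    (_hE3 : ∀ x, i3 x = 0 → ∃ c, d2 c = x)
    (_htP1 : ∀ c : P1, ∃ n : ℕ, 0 < n ∧ n • c = 0)
    (_htE2 : ∀ c : E2, ∃ n : ℕ, 0 < n ∧ n • c = 0)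
    (_htP2 : ∀ c : P2, ∃ n : ℕ, 0 < n ∧ n • c = 0)
    (V : Type) (VS : Finset V) (_hVS : VS.Nonempty)
    (inv : V → Q2 →+ T) (lam : V → P2 →+ T)
    (_hB1 : ∀ y, IsPPrimary p y → (∀ v, inv v y = 0) → y = 0)
    (_hB2 : ∀ y, (∀ v, v ∉ VS → inv v y = 0) → ∑ v ∈ VS, inv v y = 0)
    (_hB3 : ∀ (t : V → T) (W : Finset V), (∀ v, IsPPrimary p (t v)) → (∀ v, v ∉ W → t v = 0) →
      ∑ v ∈ W, t v = 0 → ∃ y, IsPPrimary p y ∧ ∀ v, inv v y = t v)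
    (_hB4 : ∀ z : Q3, IsPPrimary p z → z = 0)
    (_hPa : ∀ c : P1, IsPPrimary p c → c = 0)
    (_hPb : ∀ c : P2, IsPPrimary p c → (∀ v, v ∉ VS → lam v c = 0) → c = 0)
    (_hPbfin : ∀ c : P2, ∃ W : Finset V, ∀ v, v ∉ W → lam v c = 0)
    (_hlam : ∀ v, v ∉ VS → ∀ y, lam v (π2 y) = inv v y),
    (∀ x : E2, IsPPrimary p x → (∀ v ∈ VS, inv v (i2 x) = 0) → x = 0) ∧
    (∀ t : V → T, (∀ v, IsPPrimary p (t v)) → ∑ v ∈ VS, t v = 0 →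
      ∃ x : E2, IsPPrimary p x ∧ ∀ v ∈ VS, inv v (i2 x) = t v) ∧
    (∀ x : E2, ∑ v ∈ VS, inv v (i2 x) = 0) ∧
    (∀ x : E3, IsPPrimary p x → x = 0)

/-- LAYER 1b: the chase for the Kummer sequence `0 → μ_p → E_S → E_S → 0`. -/
def KummerChaseStatement : Prop :=
  ∀ (p : ℕ), p.Prime → ∀ (T : Type) [AddCommGroup T]
    (_hdiv : ∀ a : T, IsPPrimary p a → ∃ a' : T, IsPPrimary p a' ∧ p • a' = a)
    (E1 M2 E2 M3 E3 : Type) [AddCommGroup E1] [AddCommGroup M2] [AddCommGroup E2]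
    [AddCommGroup M3] [AddCommGroup E3]
    (δ1 : E1 →+ M2) (j2 : M2 →+ E2) (δ2 : E2 →+ M3) (j3 : M3 →+ E3)
    (_hM2 : ∀ x, j2 x = 0 → ∃ e, δ1 e = x)
    (_hE2 : ∀ e : E2, p • e = 0 → ∃ x, j2 x = e)
    (_hE2' : ∀ e : E2, δ2 (p • e) = 0)
    (_hM3 : ∀ x, j3 x = 0 → ∃ e, δ2 e = x)
    (_hpM2 : ∀ x : M2, p • x = 0) (_hpM3 : ∀ x : M3, p • x = 0)
    (_htE2 : ∀ e : E2, ∃ n : ℕ, 0 < n ∧ n • e = 0)
    (VS : Type) [Fintype VS] [Nonempty VS] (I : VS → E2 →+ T)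
    (_ES1 : ∀ x, IsPPrimary p x → (∀ v, I v x = 0) → x = 0)
    (_ES2 : ∀ t : VS → T, (∀ v, IsPPrimary p (t v)) → ∑ v, t v = 0 →
      ∃ x, IsPPrimary p x ∧ ∀ v, I v x = t v)
    (_ES3 : ∀ x, ∑ v, I v x = 0)
    (_ES4 : ∀ x : E3, IsPPrimary p x → x = 0),
    (∀ x : M3, x = 0) ∧
    (∀ x : M2, ∑ v, I v (j2 x) = 0) ∧
    (∀ t : VS → T, (∀ v, p • t v = 0) → ∑ v, t v = 0 → ∃ x : M2, ∀ v, I v (j2 x) = t v) ∧
    (∀ x : M2, (∀ v, I v (j2 x) = 0) → ∃ e : E1, δ1 e = x)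

end Fermat.Agent.S55.H70
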