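/-
Program C (S55), package C9b (helper70): from finite-level class field theory to `G_S`.
LAYER 2, abstract core (Mathlib + the two landed chases).

* `Pres H` : a presentation of an abelian group `H` as a filtered union of images of groups `A i`
  (in the application `H = Hⁿ_lc(G_S(F), Q_S^×)`, `A i = Hⁿ(Gal(K/F), K^×)` for the finite Galois
  layers `K/F` inside `ℚ_S`, `φ` = inflation); `Pres.desc` : a compatible family of homomorphisms
  on the `A i` descends to `H` (this is how the local invariants are DEFINED on the `G_S`-side).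
* `GSData` / `GSData.Good` : the data and the properties that the sub-packages of C9b deliver for
  one number field `F ⊆ ℚ_S` (long exact sequences: LC-EXACT/LC-ELT; torsion: LC-TORS; finite
  levels: C8 exports X1, X2, X4, X5 through FL-Q; the module `P_S`: L2-P).
* `GSData.main` : the conclusions (K1) `H³(G_S(F), μ_p) = 0`, (K2) reciprocity, (K3) existence,
  (K4) the Hasse principle modulo `δ(H¹(E_S))`, for `H²(G_S(F), μ_p)`.
-/
import Mathlib
import Fermat.Agent.S55.H70.GSAbstract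
import Fermat.Agent.S55.H23.GSChase
import Fermat.Agent.S55.H23.KummerChase

set_option autoImplicit false

namespace Fermat.Agent.S55.H70

open Fermat.Agent.S55.H23

/-- A presentation of `H` as a filtered union of images of the groups `A i`. -/
structure Pres (H : Type) [AddCommGroup H] where
  /-- the index type (finite layers) -/
  ι : Type
  /-- the groups at finite level -/
  A : ι → Type
  [inst : ∀ i, AddCommGroup (A i)]
  /-- `le i j` : the layer `j` contains the layer `i` -/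
  le : ι → ι → Prop
  /-- the transition maps (inflation) -/
  tr : ∀ i j, le i j → A i →+ A j
  /-- the maps to `H` (inflation to `G_S`) -/
  φ : ∀ i, A i →+ H
  directed : ∀ i j, ∃ k, le i k ∧ le j k
  compat : ∀ i j (h : le i j) (a : A i), φ j (tr i j h a) = φ i a
  surj : ∀ x : H, ∃ i, ∃ a : A i, φ i a = x
  ker : ∀ i (a : A i), φ i a = 0 → ∃ j, ∃ h : le i j, tr i j h a = 0

attribute [instance] Pres.inst

namespace Pres

variable {H : Type} [AddCommGroup H] (P : Pres H)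

/-- A `p`-primary element of `H` has a `p`-primary representative at some finite level. -/
theorem exists_pprimary {p : ℕ} (x : H) (hx : IsPPrimary p x) :
    ∃ i, ∃ a : P.A i, IsPPrimary p a ∧ P.φ i a = x := by
  obtain ⟨i, a, rfl⟩ := P.surj x
  obtain ⟨k, hk⟩ := hx
  have h0 : P.φ i (p ^ k • a) = 0 := by rw [map_nsmul, hk]
  obtain ⟨j, h, hj⟩ := P.ker i _ h0
  exact ⟨j, P.tr i j h a, ⟨k, by rw [← map_nsmul, hj]⟩, P.compat i j h a⟩

/-- If every `p`-primary element dies at a higher level, `H` has no `p`-primary elements. -/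
theorem eq_zero_of_pprimary {p : ℕ}
    (h3 : ∀ i (a : P.A i), IsPPrimary p a → ∃ j, ∃ h : P.le i j, P.tr i j h a = 0)
    (z : H) (hz : IsPPrimary p z) : z = 0 := by
  obtain ⟨i, a, ha, rfl⟩ := P.exists_pprimary z hz
  obtain ⟨j, h, hj⟩ := h3 i a ha
  rw [← P.compat i j h a, hj, map_zero]

variable {T : Type} [AddCommGroup T]

/-- Two representatives of the same element have the same value under a compatible family. -/
theorem desc_aux (l : ∀ i, P.A i →+ T)
    (hl : ∀ i j (h : P.le i j) (a : P.A i), l j (P.tr i j h a) = l i a)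
    (i j : P.ι) (a : P.A i) (b : P.A j) (hab : P.φ i a = P.φ j b) : l i a = l j b := by
  obtain ⟨k, h1, h2⟩ := P.directed i j
  have h0 : P.φ k (P.tr i k h1 a - P.tr j k h2 b) = 0 := by
    rw [map_sub, P.compat, P.compat, hab, sub_self]
  obtain ⟨m, h3, hm⟩ := P.ker k _ h0
  have h4 : l k (P.tr i k h1 a - P.tr j k h2 b) = 0 := by
    rw [← hl k m h3, hm, map_zero]
  rw [map_sub, hl, hl, sub_eq_zero] at h4
  exact h4

/-- **Descent**: a compatible family of homomorphisms on the finite levels defines a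
homomorphism on `H`. -/
theorem desc (l : ∀ i, P.A i →+ T)
    (hl : ∀ i j (h : P.le i j) (a : P.A i), l j (P.tr i j h a) = l i a) :
    ∃ f : H →+ T, ∀ i (a : P.A i), f (P.φ i a) = l i a := by
  classical
  let f : H → T := fun x => l (P.surj x).choose (P.surj x).choose_spec.choose
  have hf : ∀ i (a : P.A i), f (P.φ i a) = l i a := fun i a =>
    P.desc_aux l hl _ _ _ _ (P.surj (P.φ i a)).choose_spec.choose_spec
  have hadd : ∀ x y, f (x + y) = f x + f y := by
    intro x y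
    obtain ⟨i, a, rfl⟩ := P.surj x
    obtain ⟨j, b, rfl⟩ := P.surj y
    obtain ⟨k, h1, h2⟩ := P.directed i j
    have e : P.φ i a + P.φ j b = P.φ k (P.tr i k h1 a + P.tr j k h2 b) := by
      rw [map_add, P.compat, P.compat]
    rw [e, hf, hf, hf, map_add, hl, hl]
  exact ⟨AddMonoidHom.mk' f hadd, hf⟩

end Pres

/-- The data of C9b for one number field `F ⊆ ℚ_S` (all groups are level-constant cohomology
groups of `G_S(F)`): `Pⁿ`, `Eⁿ`, `Qⁿ`, `Mⁿ` are the `Hⁿ` of `P_S = Q_S^×/E_S`, of the `S`-units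
`E_S`, of `Q_S^×` and of `μ_p`; the maps are those of the long exact sequences of
`0 → E_S → Q_S^× → P_S → 0` and of the Kummer sequence `0 → μ_p → E_S → E_S → 0`;
`V` = the finite places of `F`, `VS` those above `S`; `inv v`, `lam v` are the `p`-primary
components of the local invariants; `presQ2`, `presQ3` the finite-level presentations of
`H²`, `H³` of `Q_S^×` and `linv` the invariants of the finite layers. -/
structure GSData (T : Type) [AddCommGroup T] where
  P1 : Type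
  E2 : Type
  Q2 : Type
  P2 : Type
  E3 : Type
  Q3 : Type
  E1 : Type
  M2 : Type
  M3 : Type
  [iP1 : AddCommGroup P1]
  [iE2 : AddCommGroup E2]
  [iQ2 : AddCommGroup Q2]
  [iP2 : AddCommGroup P2]
  [iE3 : AddCommGroup E3]
  [iQ3 : AddCommGroup Q3]
  [iE1 : AddCommGroup E1]
  [iM2 : AddCommGroup M2]
  [iM3 : AddCommGroup M3]
  d1 : P1 →+ E2
  i2 : E2 →+ Q2
  π2 : Q2 →+ P2
  d2 : P2 →+ E3
  i3 : E3 →+ Q3
  δ1 : E1 →+ M2
  j2 : M2 →+ E2
  δ2 : E2 →+ M3
  j3 : M3 →+ E3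
  V : Type
  VS : Finset V
  inv : V → Q2 →+ T
  lam : V → P2 →+ T
  presQ2 : Pres Q2
  presQ3 : Pres Q3
  linv : ∀ i, V → presQ2.A i →+ T

attribute [instance] GSData.iP1 GSData.iE2 GSData.iQ2 GSData.iP2 GSData.iE3 GSData.iQ3
  GSData.iE1 GSData.iM2 GSData.iM3

/-- The properties of a `GSData` delivered by the sub-packages of C9b. -/
structure GSData.Good (p : ℕ) {T : Type} [AddCommGroup T] (D : GSData T) : Prop where
  /- the two long exact sequences (LC-EXACT, LC-ELT) -/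
  exE2 : ∀ x, D.i2 x = 0 → ∃ c, D.d1 c = x
  exQ2 : ∀ y, D.π2 y = 0 → ∃ x, D.i2 x = y
  exQ2' : ∀ x, D.π2 (D.i2 x) = 0
  exP2' : ∀ y, D.d2 (D.π2 y) = 0
  exE3 : ∀ x, D.i3 x = 0 → ∃ c, D.d2 c = x
  exM2 : ∀ x, D.j2 x = 0 → ∃ e, D.δ1 e = x
  exE2p : ∀ e : D.E2, p • e = 0 → ∃ x, D.j2 x = e
  exE2p' : ∀ e : D.E2, D.δ2 (p • e) = 0
  exM3 : ∀ x, D.j3 x = 0 → ∃ e, D.δ2 e = x
  pM2 : ∀ x : D.M2, p • x = 0
  pM3 : ∀ x : D.M3, p • x = 0
  /- torsion (LC-TORS) -/
  tP1 : ∀ c : D.P1, ∃ n : ℕ, 0 < n ∧ n • c = 0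
  tE2 : ∀ c : D.E2, ∃ n : ℕ, 0 < n ∧ n • c = 0
  tQ2 : ∀ c : D.Q2, ∃ n : ℕ, 0 < n ∧ n • c = 0
  tP2 : ∀ c : D.P2, ∃ n : ℕ, 0 < n ∧ n • c = 0
  /- the target of the invariants -/
  hdiv : ∀ a : T, IsPPrimary p a → ∃ a' : T, IsPPrimary p a' ∧ p • a' = a
  /- the invariants (defined by descent, composed with the `p`-primary projection) -/
  VSne : D.VS.Nonempty
  inv_φ : ∀ i v (a : D.presQ2.A i), D.inv v (D.presQ2.φ i a) = D.linv i v a
  inv_pp : ∀ v (y : D.Q2) (m : ℕ), ¬ p ∣ m → m • y = 0 → D.inv v y = 0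
  /- finite levels (C8: X1 Hasse, X2 reciprocity, X4 existence, X5 `H³`) -/
  hasse : ∀ i (a : D.presQ2.A i), IsPPrimary p a → (∀ v, D.linv i v a = 0) → a = 0
  recip : ∀ i (a : D.presQ2.A i), IsPPrimary p a → ∀ W : Finset D.V,
    (∀ v, v ∉ W → D.linv i v a = 0) → ∑ v ∈ W, D.linv i v a = 0
  exist : ∀ (t : D.V → T) (W : Finset D.V), (∀ v, IsPPrimary p (t v)) → (∀ v, v ∉ W → t v = 0) →
    ∑ v ∈ W, t v = 0 → ∃ i, ∃ a : D.presQ2.A i, IsPPrimary p a ∧ ∀ v, D.linv i v a = t v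
  h3 : ∀ i (a : D.presQ3.A i), IsPPrimary p a →
    ∃ j, ∃ h : D.presQ3.le i j, D.presQ3.tr i j h a = 0
  /- the module `P_S` (L2-P) -/
  hPa : ∀ c : D.P1, IsPPrimary p c → c = 0
  hPb : ∀ c : D.P2, IsPPrimary p c → (∀ v, v ∉ D.VS → D.lam v c = 0) → c = 0
  hPbfin : ∀ c : D.P2, ∃ W : Finset D.V, ∀ v, v ∉ W → D.lam v c = 0
  hlam : ∀ v, v ∉ D.VS → ∀ y, D.lam v (D.π2 y) = D.inv v y

namespace GSData

variable {p : ℕ} {T : Type} [AddCommGroup T] (D : GSData T)

/-- (B1) Hasse principle for the `p`-primary classes of `H²(G_S(F), Q_S^×)`. -/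
theorem hB1 (hD : D.Good p) (y : D.Q2) (hy : IsPPrimary p y) (h : ∀ v, D.inv v y = 0) :
    y = 0 := by
  obtain ⟨i, a, ha, rfl⟩ := D.presQ2.exists_pprimary y hy
  rw [hD.hasse i a ha fun v => by rw [← hD.inv_φ, h], map_zero]

/-- (B2) reciprocity on `H²(G_S(F), Q_S^×)`. -/
theorem hB2 (hp : p.Prime) (hD : D.Good p) (y : D.Q2) (h : ∀ v, v ∉ D.VS → D.inv v y = 0) :
    ∑ v ∈ D.VS, D.inv v y = 0 := by
  obtain ⟨n, hn, hny⟩ := hD.tQ2 y
  obtain ⟨a, b, m, hab, hpa, hm, hmb⟩ := Chase.exists_decomp hp hn hny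
  have hb : ∀ v, D.inv v (b • y) = 0 := fun v => hD.inv_pp v _ m hm hmb
  have hy : ∀ v, D.inv v y = D.inv v (a • y) := by
    intro v
    conv_lhs => rw [Chase.eq_add_of_add_eq_one hab y]
    rw [map_add, hb, add_zero]
  obtain ⟨i, a', ha', he⟩ := D.presQ2.exists_pprimary (a • y) hpa
  have h1 : ∀ v, D.linv i v a' = D.inv v y := fun v => by rw [← hD.inv_φ, he, hy]
  have h2 := hD.recip i a' ha' D.VS fun v hv => by rw [h1, h v hv]
  rw [← h2]
  exact Finset.sum_congr rfl fun v _ => (h1 v).symm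

/-- (B3) existence of `p`-primary classes of `H²(G_S(F), Q_S^×)` with given invariants. -/
theorem hB3 (hD : D.Good p) (t : D.V → T) (W : Finset D.V) (ht : ∀ v, IsPPrimary p (t v))
    (hW : ∀ v, v ∉ W → t v = 0) (hsum : ∑ v ∈ W, t v = 0) :
    ∃ y, IsPPrimary p y ∧ ∀ v, D.inv v y = t v := by
  obtain ⟨i, a, ha, hv⟩ := hD.exist t W ht hW hsum
  exact ⟨D.presQ2.φ i a, Chase.pprim_map _ ha, fun v => by rw [hD.inv_φ, hv]⟩

/-- (B4) `H³(G_S(F), Q_S^×)` has no `p`-primary classes. -/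
theorem hB4 (hD : D.Good p) (z : D.Q3) (hz : IsPPrimary p z) : z = 0 :=
  D.presQ3.eq_zero_of_pprimary hD.h3 z hz

/-- The conclusions (ES1)–(ES4) for `H²`, `H³` of the `S`-units. -/
theorem es (hp : p.Prime) (hD : D.Good p) :
    (∀ x : D.E2, IsPPrimary p x → (∀ v ∈ D.VS, D.inv v (D.i2 x) = 0) → x = 0) ∧
    (∀ t : D.V → T, (∀ v, IsPPrimary p (t v)) → ∑ v ∈ D.VS, t v = 0 →
      ∃ x : D.E2, IsPPrimary p x ∧ ∀ v ∈ D.VS, D.inv v (D.i2 x) = t v) ∧
    (∀ x : D.E2, ∑ v ∈ D.VS, D.inv v (D.i2 x) = 0) ∧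
    (∀ x : D.E3, IsPPrimary p x → x = 0) :=
  gsChase p hp T D.P1 D.E2 D.Q2 D.P2 D.E3 D.Q3 D.d1 D.i2 D.π2 D.d2 D.i3
    hD.exE2 hD.exQ2 hD.exQ2' hD.exP2' hD.exE3 hD.tP1 hD.tE2 hD.tP2
    D.V D.VS hD.VSne D.inv D.lam (D.hB1 hD) (D.hB2 hp hD) (D.hB3 hD) (D.hB4 hD)
    hD.hPa hD.hPb hD.hPbfin hD.hlam

/-- The invariant at a place above `S` of a class of `H²(G_S(F), μ_p)`. -/
def invM (v : D.VS) : D.M2 →+ T := ((D.inv v).comp D.i2).comp D.j2

/-- **C9b, abstract main theorem**: (K1) `H³(G_S(F), μ_p) = 0`; (K2) reciprocity;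
(K3) existence; (K4) a class of `H²(G_S(F), μ_p)` with trivial invariants at the places above
`S` comes from `H¹(G_S(F), E_S)`. -/
theorem main (hp : p.Prime) (hD : D.Good p) :
    (∀ x : D.M3, x = 0) ∧
    (∀ x : D.M2, ∑ v : D.VS, D.invM v x = 0) ∧
    (∀ t : D.VS → T, (∀ v, p • t v = 0) → ∑ v, t v = 0 → ∃ x : D.M2, ∀ v, D.invM v x = t v) ∧
    (∀ x : D.M2, (∀ v : D.VS, D.invM v x = 0) → ∃ e : D.E1, D.δ1 e = x) := by
  classical
  obtain ⟨es1, es2, es3, es4⟩ := D.es hp hD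
  haveI : Nonempty D.VS := hD.VSne.to_subtype
  let I : D.VS → D.E2 →+ T := fun v => (D.inv v).comp D.i2
  refine kummerChase p hp T hD.hdiv D.E1 D.M2 D.E2 D.M3 D.E3 D.δ1 D.j2 D.δ2 D.j3
    hD.exM2 hD.exE2p hD.exE2p' hD.exM3 hD.pM2 hD.pM3 hD.tE2 D.VS I ?_ ?_ ?_ es4
  · intro x hx h
    exact es1 x hx fun v hv => h ⟨v, hv⟩
  · intro t ht hsum
    let t' : D.V → T := fun v => if h : v ∈ D.VS then t ⟨v, h⟩ else 0
    have ht' : ∀ v, IsPPrimary p (t' v) := by
      intro v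
      by_cases h : v ∈ D.VS
      · simp only [t', dif_pos h]; exact ht _
      · simp only [t', dif_neg h]; exact Chase.pprim_zero
    have hsum' : ∑ v ∈ D.VS, t' v = 0 := by
      rw [← Finset.sum_coe_sort D.VS t', ← hsum]
      exact Finset.sum_congr rfl fun v _ => by simp [t']
    obtain ⟨x, hx, hxv⟩ := es2 t' ht' hsum'
    exact ⟨x, hx, fun v => by
      show D.inv v (D.i2 x) = t v
      rw [hxv v v.2]; simp [t']⟩
  · intro x
    have := es3 x
    rw [← Finset.sum_coe_sort D.VS (fun v => D.inv v (D.i2 x))] at this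
    exact this

end GSData

end Fermat.Agent.S55.H70
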