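/-
Program C (S55), package C9b (helper70): LAYER 2, the concrete cohomological data.

For a number field `F ⊆ ℚ̄` (in the application `F ⊆ ℚ_S`), `Γ = Gal(ℚ̄/F)` with the level datum
`H42.fieldDatum S F` (levels = finite extensions of `ℚ` unramified outside `S`), the groups
`Hⁿ_lc(Γ, -)` of `μ_p ⊆ E_S ⊆ ℚ_S^× ↠ P_S` (helper42's `GSDefs`) and the maps of the two long
exact sequences (helper99's `LcElt`).  PROVED here: all the exactness and torsion clauses of
`GSData.Good` (the "cohomological half").  The arithmetic half is the structure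
`GSArith` / `GSArith.Good` (leaves of the sub-packages FL-Q, L2-B, L2-P), and
`GSArith.main` is the resulting theorem (K1)–(K4) for `F`.
-/
import Fermat.Agent.S55.H70.GSLimit
import Fermat.Agent.S55.H42.GSDefs
import Fermat.Agent.S55.H99.LcExact
import Fermat.Agent.S55.H99.LcElt
import Fermat.Agent.S55.H74.LcTors

set_option autoImplicit false

open CategoryTheory HomologicalComplex

noncomputable section

namespace Fermat.Agent.S55.H70

open Fermat.Agent.S55

/-- Multiplication by `n` on level-constant cohomology is induced by `n • 𝟙`. -/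
theorem homologyMap_lcMapCoeff_nsmul {G : Type} [Group G] (D : H49.LevelDatum G)
    (A : Rep.{0} ℤ G) (n m : ℕ) (x : H49.Hlc D A m) :
    (homologyMap (H49.lcMapCoeff D (n • 𝟙 A)) m).hom x = n • x := by
  have h1 : H49.lcMapCoeff D (n • 𝟙 A) = n • 𝟙 (H49.lcComplex D A) := by
    ext i f
    rfl
  rw [h1]
  have h2 : homologyMap (n • 𝟙 (H49.lcComplex D A)) m = n • 𝟙 _ := by
    have := (homologyFunctor (ModuleCat.{0} ℤ) (ComplexShape.up ℕ) m).map_nsmul
      (f := 𝟙 (H49.lcComplex D A)) (n := n)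
    simp only [homologyFunctor_map, homologyMap_id] at this
    exact this
  rw [h2]
  rfl

variable {p : ℕ} [Fact p.Prime] {S : Finset Nat.Primes} (hpS : ExtCitation.pPrime p ∈ S)
  (F : IntermediateField ℚ (AlgebraicClosure ℚ))

/-- The complexes of level-constant cochains of `0 → E_S → ℚ_S^× → P_S → 0` over `G_S(F)` form a
short exact sequence. -/
theorem gsLc : ((H42.gsShortComplexF S F).map
    (H49.lcFunctor ℤ (H42.fieldDatum S F))).ShortExact :=
  H99.lcShortExact_of_pointwise' _ (H42.fieldDatum_finiteIndex S F) _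
    (H42.gsShortComplexF_shortExact S F) (H42.gsShortComplexF_smooth S F)

/-- The same for the Kummer sequence `0 → μ_p → E_S → E_S → 0`. -/
theorem kuLc : ((H42.kummerShortComplexF hpS F).map
    (H49.lcFunctor ℤ (H42.fieldDatum S F))).ShortExact :=
  H99.lcShortExact_of_pointwise' _ (H42.fieldDatum_finiteIndex S F) _
    (H42.kummerShortComplexF_shortExact hpS F) (H42.kummerShortComplexF_smooth hpS F)

/-- `Hⁿ_lc(G_S(F), μ_p)`. -/
abbrev HMu (p : ℕ) (S : Finset Nat.Primes) (F : IntermediateField ℚ (AlgebraicClosure ℚ))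
    (n : ℕ) : ModuleCat.{0} ℤ :=
  H49.Hlc (H42.fieldDatum S F) (H42.resF F (H42.Mux p)) n

/-- `Hⁿ_lc(G_S(F), E_S)`. -/
abbrev HE (S : Finset Nat.Primes) (F : IntermediateField ℚ (AlgebraicClosure ℚ))
    (n : ℕ) : ModuleCat.{0} ℤ :=
  H49.Hlc (H42.fieldDatum S F) (H42.resF F (H42.ESx S)) n

/-- `Hⁿ_lc(G_S(F), ℚ_S^×)`. -/
abbrev HQ (S : Finset Nat.Primes) (F : IntermediateField ℚ (AlgebraicClosure ℚ))
    (n : ℕ) : ModuleCat.{0} ℤ :=
  H49.Hlc (H42.fieldDatum S F) (H42.resF F (H42.QSx S)) n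

/-- `Hⁿ_lc(G_S(F), P_S)`. -/
abbrev HP (S : Finset Nat.Primes) (F : IntermediateField ℚ (AlgebraicClosure ℚ))
    (n : ℕ) : ModuleCat.{0} ℤ :=
  H49.Hlc (H42.fieldDatum S F) (H42.resF F (H42.PSx S)) n

/-- `H¹(P_S) → H²(E_S)`. -/
def gsD1 : HP S F 1 →+ HE S F 2 := (H99.lcDelta (H42.fieldDatum S F) (gsLc F) 1).toAddMonoidHom
/-- `H²(E_S) → H²(ℚ_S^×)`. -/
def gsI2 : HE S F 2 →+ HQ S F 2 :=
  (H99.lcF (H42.fieldDatum S F) (H42.gsShortComplexF S F) 2).toAddMonoidHom
/-- `H²(ℚ_S^×) → H²(P_S)`. -/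
def gsPi2 : HQ S F 2 →+ HP S F 2 :=
  (H99.lcG (H42.fieldDatum S F) (H42.gsShortComplexF S F) 2).toAddMonoidHom
/-- `H²(P_S) → H³(E_S)`. -/
def gsD2 : HP S F 2 →+ HE S F 3 := (H99.lcDelta (H42.fieldDatum S F) (gsLc F) 2).toAddMonoidHom
/-- `H³(E_S) → H³(ℚ_S^×)`. -/
def gsI3 : HE S F 3 →+ HQ S F 3 :=
  (H99.lcF (H42.fieldDatum S F) (H42.gsShortComplexF S F) 3).toAddMonoidHom
/-- The Kummer boundary `H¹(E_S) → H²(μ_p)`. -/
def kuD1 : HE S F 1 →+ HMu p S F 2 :=
  (H99.lcDelta (H42.fieldDatum S F) (kuLc hpS F) 1).toAddMonoidHom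
/-- `H²(μ_p) → H²(E_S)`. -/
def kuJ2 : HMu p S F 2 →+ HE S F 2 :=
  (H99.lcF (H42.fieldDatum S F) (H42.kummerShortComplexF hpS F) 2).toAddMonoidHom
/-- The Kummer boundary `H²(E_S) → H³(μ_p)`. -/
def kuD2 : HE S F 2 →+ HMu p S F 3 :=
  (H99.lcDelta (H42.fieldDatum S F) (kuLc hpS F) 2).toAddMonoidHom
/-- `H³(μ_p) → H³(E_S)`. -/
def kuJ3 : HMu p S F 3 →+ HE S F 3 :=
  (H99.lcF (H42.fieldDatum S F) (H42.kummerShortComplexF hpS F) 3).toAddMonoidHom

/-- The map induced by `x ↦ x ^ p` on `Hⁿ(E_S)` is multiplication by `p`. -/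
theorem kuG_apply (n : ℕ) (e : HE S F n) :
    H99.lcG (H42.fieldDatum S F) (H42.kummerShortComplexF hpS F) n e = p • e :=
  homologyMap_lcMapCoeff_nsmul (H42.fieldDatum S F) (H42.resF F (H42.ESx S)) p n e

/-- `Hⁿ(μ_p)` is killed by `p`. -/
theorem hMu_smul (n : ℕ) (x : HMu p S F n) : p • x = 0 := by
  rw [← homologyMap_lcMapCoeff_nsmul (H42.fieldDatum S F) (H42.resF F (H42.Mux p)) p n x]
  have h0 : p • 𝟙 (H42.resF F (H42.Mux p)) = 0 := by
    ext x
    show p • x = 0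
    apply H42.unitsRep.val_injective
    rw [H42.unitsRep.val_nsmul]
    exact H42.mem_muUnits.mp (H42.unitsRep.val_mem x)
  rw [h0]
  have h1 : H49.lcMapCoeff (H42.fieldDatum S F) (0 : H42.resF F (H42.Mux p) ⟶ H42.resF F (H42.Mux p)) = 0 := by
    ext i f
    rfl
  rw [h1, homologyMap_zero]
  rfl

/-- The arithmetic data of C9b for the number field `F` (delivered by FL-Q, L2-B, L2-P):
the places `V` of `F` and those above `S`, the (`p`-primary components of the) invariants on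
`H²(G_S(F), ℚ_S^×)` and `H²(G_S(F), P_S)`, the finite-level presentations of `H²`, `H³` of
`ℚ_S^×` and the invariants of the finite layers. -/
structure GSArith (S : Finset Nat.Primes) (F : IntermediateField ℚ (AlgebraicClosure ℚ))
    (T : Type) [AddCommGroup T] where
  V : Type
  VS : Finset V
  inv : V → HQ S F 2 →+ T
  lam : V → HP S F 2 →+ T
  presQ2 : Pres (HQ S F 2)
  presQ3 : Pres (HQ S F 3)
  linv : ∀ i, V → presQ2.A i →+ T

variable {F} {T : Type} [AddCommGroup T]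

/-- The `GSData` of a `GSArith`. -/
def GSArith.toData (A : GSArith S F T) : GSData T where
  P1 := HP S F 1
  E2 := HE S F 2
  Q2 := HQ S F 2
  P2 := HP S F 2
  E3 := HE S F 3
  Q3 := HQ S F 3
  E1 := HE S F 1
  M2 := HMu p S F 2
  M3 := HMu p S F 3
  d1 := gsD1 F
  i2 := gsI2 F
  π2 := gsPi2 F
  d2 := gsD2 F
  i3 := gsI3 F
  δ1 := kuD1 hpS F
  j2 := kuJ2 hpS F
  δ2 := kuD2 hpS F
  j3 := kuJ3 hpS F
  V := A.V
  VS := A.VS
  inv := A.inv
  lam := A.lam
  presQ2 := A.presQ2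
  presQ3 := A.presQ3
  linv := A.linv

/-- The arithmetic leaves of C9b for the number field `F`. -/
structure GSArith.Good (p : ℕ) (A : GSArith S F T) : Prop where
  /-- the target of the invariants is `p`-divisible on `p`-primary elements (`T = ℚ/ℤ`) -/
  hdiv : ∀ a : T, IsPPrimary p a → ∃ a' : T, IsPPrimary p a' ∧ p • a' = a
  /-- `F` has a place above `S` -/
  VSne : A.VS.Nonempty
  /-- the invariants on the `G_S`-side are the descent of those of the finite layers (FL-Q) -/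
  inv_φ : ∀ i v (a : A.presQ2.A i), A.inv v (A.presQ2.φ i a) = A.linv i v a
  /-- they are `p`-primary components -/
  inv_pp : ∀ v (y : HQ S F 2) (m : ℕ), ¬ p ∣ m → m • y = 0 → A.inv v y = 0
  /-- C8 X1: Hasse principle for the `p`-primary classes of the finite layers -/
  hasse : ∀ i (a : A.presQ2.A i), IsPPrimary p a → (∀ v, A.linv i v a = 0) → a = 0
  /-- C8 X2: reciprocity for the `p`-primary classes of the finite layers -/
  recip : ∀ i (a : A.presQ2.A i), IsPPrimary p a → ∀ W : Finset A.V,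
    (∀ v, v ∉ W → A.linv i v a = 0) → ∑ v ∈ W, A.linv i v a = 0
  /-- C8 X4 (+ cyclotomic `ℤ_p`-layers): existence -/
  exist : ∀ (t : A.V → T) (W : Finset A.V), (∀ v, IsPPrimary p (t v)) → (∀ v, v ∉ W → t v = 0) →
    ∑ v ∈ W, t v = 0 → ∃ i, ∃ a : A.presQ2.A i, IsPPrimary p a ∧ ∀ v, A.linv i v a = t v
  /-- C8 X5: the `p`-primary classes of `H³` of a finite layer die in a bigger layer -/
  h3 : ∀ i (a : A.presQ3.A i), IsPPrimary p a →
    ∃ j, ∃ h : A.presQ3.le i j, A.presQ3.tr i j h a = 0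
  /-- L2-P -/
  hPa : ∀ c : HP S F 1, IsPPrimary p c → c = 0
  hPb : ∀ c : HP S F 2, IsPPrimary p c → (∀ v, v ∉ A.VS → A.lam v c = 0) → c = 0
  hPbfin : ∀ c : HP S F 2, ∃ W : Finset A.V, ∀ v, v ∉ W → A.lam v c = 0
  hlam : ∀ v, v ∉ A.VS → ∀ y, A.lam v (gsPi2 F y) = A.inv v y

/-- The cohomological half of `GSData.Good` is automatic. -/
theorem GSArith.good_toData (A : GSArith S F T) (hA : A.Good p) : (A.toData hpS).Good p where
  exE2 x hx := H99.lc_exact_left (H42.fieldDatum S F) (gsLc F) 1 x hx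
  exQ2 y hy := H99.lc_exact_mid (H42.fieldDatum S F) (gsLc F) 2 y hy
  exQ2' x := H99.lc_g_f_apply (X := H42.gsShortComplexF S F) (H42.fieldDatum S F) 2 x
  exP2' y := H99.lc_delta_g_apply (H42.fieldDatum S F) (gsLc F) 2 y
  exE3 x hx := H99.lc_exact_left (H42.fieldDatum S F) (gsLc F) 2 x hx
  exM2 x hx := H99.lc_exact_left (H42.fieldDatum S F) (kuLc hpS F) 1 x hx
  exE2p e he := H99.lc_exact_mid (H42.fieldDatum S F) (kuLc hpS F) 2 e
    ((kuG_apply hpS F 2 e).trans he)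
  exE2p' e := by
    have h := H99.lc_delta_g_apply (H42.fieldDatum S F) (kuLc hpS F) 2 e
    rw [kuG_apply hpS F 2 e] at h
    exact h
  exM3 x hx := H99.lc_exact_left (H42.fieldDatum S F) (kuLc hpS F) 2 x hx
  pM2 x := hMu_smul F 2 x
  pM3 x := hMu_smul F 3 x
  tP1 c := H74.hlc_torsion _ (H42.fieldDatum_finiteIndex S F) _ 1 le_rfl c
  tE2 c := H74.hlc_torsion _ (H42.fieldDatum_finiteIndex S F) _ 2 (by norm_num) c
  tQ2 c := H74.hlc_torsion _ (H42.fieldDatum_finiteIndex S F) _ 2 (by norm_num) c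
  tP2 c := H74.hlc_torsion _ (H42.fieldDatum_finiteIndex S F) _ 2 (by norm_num) c
  hdiv := hA.hdiv
  VSne := hA.VSne
  inv_φ := hA.inv_φ
  inv_pp := hA.inv_pp
  hasse := hA.hasse
  recip := hA.recip
  exist := hA.exist
  h3 := hA.h3
  hPa := hA.hPa
  hPb := hA.hPb
  hPbfin := hA.hPbfin
  hlam := hA.hlam

/-- The invariant at a place `v` above `S` of a class of `H²(G_S(F), μ_p)`. -/
def GSArith.invMu (A : GSArith S F T) (v : A.VS) : HMu p S F 2 →+ T :=
  ((A.inv v).comp (gsI2 F)).comp (kuJ2 hpS F)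

/-- **C9b for the number field `F`**: (K1) `H³_lc(G_S(F), μ_p) = 0`; (K2) reciprocity;
(K3) existence; (K4) a class of `H²_lc(G_S(F), μ_p)` all of whose invariants above `S` vanish
is in the image of the Kummer boundary of `H¹_lc(G_S(F), E_S)`. -/
theorem GSArith.main (A : GSArith S F T) (hA : A.Good p) :
    (∀ x : HMu p S F 3, x = 0) ∧
    (∀ x : HMu p S F 2, ∑ v : A.VS, A.invMu hpS v x = 0) ∧
    (∀ t : A.VS → T, (∀ v, p • t v = 0) → ∑ v, t v = 0 →
      ∃ x : HMu p S F 2, ∀ v, A.invMu hpS v x = t v) ∧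
    (∀ x : HMu p S F 2, (∀ v : A.VS, A.invMu hpS v x = 0) →
      ∃ e : HE S F 1, kuD1 hpS F e = x) :=
  (A.toData hpS).main (Fact.out : p.Prime) (A.good_toData hpS hA)

end Fermat.Agent.S55.H70
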