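/-
Program C (S55), package C9b (helper70): LAYER 2, the model of the arithmetic data, for an
ARBITRARY finite-level presentation (so that the Galois-indexed presentation of (FL-Q),
`A K = Hⁿ(Gal(K/F), Kˣ)`, `K/F` finite Galois inside `ℚ_S`, can be used verbatim with C8's
exports for `H88.layerOf F K`).

`FinInvP S F T` = `FinInv` of `GSModel` with the two presentations `P2`, `P3` of
`H²_lc(G_S(F), ℚ_S^×)`, `H³_lc(G_S(F), ℚ_S^×)` as fields.
-/
import Fermat.Agent.S55.H70.GSModel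

set_option autoImplicit false

open CategoryTheory

noncomputable section

namespace Fermat.Agent.S55.H70

open Fermat.Agent.S55 Fermat.Agent.S55.H23

variable {p : ℕ} [Fact p.Prime] {S : Finset Nat.Primes}
  {F : IntermediateField ℚ (AlgebraicClosure ℚ)} {T : Type} [AddCommGroup T]

/-- The raw finite-level arithmetic data for `F`, relative to presentations `P2`, `P3`. -/
structure FinInvP (S : Finset Nat.Primes) (F : IntermediateField ℚ (AlgebraicClosure ℚ))
    (T : Type) [AddCommGroup T] where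
  P2 : Pres (HQ S F 2)
  P3 : Pres (HQ S F 3)
  V : Type
  VS : Finset V
  linv₀ : ∀ i : P2.ι, V → P2.A i →+ T
  pp : T →+ T
  lam : V → HP S F 2 →+ T

/-- The leaves for a `FinInvP`, in finite-level form. -/
structure FinInvP.Good (p : ℕ) (I : FinInvP S F T) : Prop where
  hdiv : ∀ a : T, IsPPrimary p a → ∃ a' : T, IsPPrimary p a' ∧ p • a' = a
  VSne : I.VS.Nonempty
  pp_id : ∀ t : T, IsPPrimary p t → I.pp t = t
  pp_kill : ∀ (t : T) (m : ℕ), ¬ p ∣ m → m • t = 0 → I.pp t = 0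
  /-- inflation preserves the local invariants (C5: `(H88.inflOf F K K').Compat`) -/
  compat : ∀ i j (h : I.P2.le i j) v (a : I.P2.A i), I.linv₀ j v (I.P2.tr i j h a) = I.linv₀ i v a
  /-- C8 X1 (`H29.HassePStatement`) -/
  hasse : ∀ i (a : I.P2.A i), IsPPrimary p a → (∀ v, I.linv₀ i v a = 0) → a = 0
  /-- C8 X2 (`H29.RecStatement`) -/
  recip : ∀ i (a : I.P2.A i), IsPPrimary p a → ∀ W : Finset I.V,
    (∀ v, v ∉ W → I.linv₀ i v a = 0) → ∑ v ∈ W, I.linv₀ i v a = 0
  /-- C8 X4 (`H29.ExStatement`) -/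
  exist : ∀ (t : I.V → T) (W : Finset I.V), (∀ v, IsPPrimary p (t v)) → (∀ v, v ∉ W → t v = 0) →
    ∑ v ∈ W, t v = 0 → ∃ i, ∃ a : I.P2.A i, IsPPrimary p a ∧ ∀ v, I.linv₀ i v a = t v
  /-- C8 X5 (`H29.H3Statement`) -/
  h3 : ∀ i (a : I.P3.A i), IsPPrimary p a → ∃ j, ∃ h : I.P3.le i j, I.P3.tr i j h a = 0
  /-- L2-P -/
  hPa : ∀ c : HP S F 1, IsPPrimary p c → c = 0
  hPb : ∀ c : HP S F 2, IsPPrimary p c → (∀ v, v ∉ I.VS → I.lam v c = 0) → c = 0
  hPbfin : ∀ c : HP S F 2, ∃ W : Finset I.V, ∀ v, v ∉ W → I.lam v c = 0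
  hlam : ∀ v, v ∉ I.VS → ∀ i (a : I.P2.A i),
    I.lam v (gsPi2 F (I.P2.φ i a)) = I.pp (I.linv₀ i v a)

namespace FinInvP

variable (I : FinInvP S F T)

/-- The finite-level invariants, projected to the `p`-primary component. -/
def linv (i : I.P2.ι) (v : I.V) : I.P2.A i →+ T := I.pp.comp (I.linv₀ i v)

open Classical in
/-- The invariant at `v` on `H²_lc(G_S(F), ℚ_S^×)`, by descent. -/
def inv (v : I.V) : HQ S F 2 →+ T :=
  if h : ∀ i j (hij : I.P2.le i j) (a : I.P2.A i),
      I.linv j v (I.P2.tr i j hij a) = I.linv i v a then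
    Classical.choose (I.P2.desc (fun i => I.linv i v) h)
  else 0

theorem inv_φ (hI : I.Good p) (i : I.P2.ι) (v : I.V) (a : I.P2.A i) :
    I.inv v (I.P2.φ i a) = I.linv i v a := by
  have h : ∀ i j (hij : I.P2.le i j) (a : I.P2.A i),
      I.linv j v (I.P2.tr i j hij a) = I.linv i v a := fun i j hij a => by
    show I.pp (I.linv₀ j v _) = I.pp (I.linv₀ i v a)
    rw [hI.compat]
  rw [inv, dif_pos h]
  exact Classical.choose_spec (I.P2.desc (fun i => I.linv i v) h) i a

/-- The `GSArith` of a `FinInvP`. -/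
abbrev toArith : GSArith S F T where
  V := I.V
  VS := I.VS
  inv := I.inv
  lam := I.lam
  presQ2 := I.P2
  presQ3 := I.P3
  linv := I.linv

theorem good_toArith (hI : I.Good p) : I.toArith.Good p where
  hdiv := hI.hdiv
  VSne := hI.VSne
  inv_φ i v a := I.inv_φ hI i v a
  inv_pp v y m hm hmy := by
    obtain ⟨i, a, rfl⟩ := I.P2.surj y
    have h0 : I.P2.φ i (m • a) = 0 := by rw [map_nsmul]; exact hmy
    obtain ⟨j, h, hj⟩ := I.P2.ker i _ h0
    rw [map_nsmul] at hj
    show I.inv v (I.P2.φ i a) = 0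
    rw [← I.P2.compat i j h a, I.inv_φ hI]
    refine hI.pp_kill _ m hm ?_
    rw [← map_nsmul, hj, map_zero]
  hasse i a ha h := hI.hasse i a ha fun v => by
    have := h v
    rwa [show I.toArith.linv i v a = I.pp (I.linv₀ i v a) from rfl,
      hI.pp_id _ (Chase.pprim_map _ ha)] at this
  recip i a ha W h := by
    have h1 : ∀ v, I.toArith.linv i v a = I.linv₀ i v a := fun v =>
      hI.pp_id _ (Chase.pprim_map _ ha)
    have h2 := hI.recip i a ha W fun v hv => by rw [← h1, h v hv]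
    rw [← h2]
    exact Finset.sum_congr rfl fun v _ => h1 v
  exist t W ht hW hsum := by
    obtain ⟨i, a, ha, hv⟩ := hI.exist t W ht hW hsum
    exact ⟨i, a, ha, fun v => by
      show I.pp (I.linv₀ i v a) = t v
      rw [hv, hI.pp_id _ (ht v)]⟩
  h3 := hI.h3
  hPa := hI.hPa
  hPb := hI.hPb
  hPbfin := hI.hPbfin
  hlam v hv y := by
    obtain ⟨i, a, rfl⟩ := I.P2.surj y
    show I.lam v (gsPi2 F (I.P2.φ i a)) = I.inv v (I.P2.φ i a)
    rw [hI.hlam v hv, I.inv_φ hI]
    rfl

end FinInvP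

/-- The arithmetic input of C9b in finite-level form (any presentations). -/
def FinInvPStatement (p : ℕ) [Fact p.Prime] (S : Finset Nat.Primes) (T : Type)
    [AddCommGroup T] : Prop :=
  ∀ E : IntermediateField ℚ (AlgebraicClosure ℚ), E.IsUnramifiedOutside S →
    (∀ ζ : AlgebraicClosure ℚ, ζ ^ p = 1 → ζ ∈ E) → ∃ I : FinInvP S E T, I.Good p

theorem arithStatement_of_finInvP (h : FinInvPStatement p S T) : ArithStatement p S T :=
  fun E hE hμ => by
    obtain ⟨I, hI⟩ := h E hE hμ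
    exact ⟨I.toArith, I.good_toArith hI⟩

end Fermat.Agent.S55.H70
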