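/-
Program C (S55), package C9b (helper70): THE FINAL INSTANTIATION.

`FinInvPStatement p S ℚ/ℤ` (hence `ArithStatement p S ℚ/ℤ`, hence (K1)–(K4) for every level
field) from

* helper74's Galois presentation `H74.presQS S F hF n` of `Hⁿ_lc(G_S(F), ℚ_S^×)`;
* C5's concrete layers `H88.layerOf ↥F ↥L.K` (local invariants `H88.linvAt` at the finite
  places `H88.FinPlace ↥F`);
* C8's exports in their landed form: `H29.InflCompatStatement`, `H29.HassePStatement NFLayer p`,
  `H29.RecStatement NFLayer p`, `H29.CyclicExStatement p`;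
* three leaves stated here in concrete form: `CycTowerStatement` (cyclic `p`-layers inside
  `ℚ_S` with large local degrees: the cyclotomic `ℤ_p`-extension), `H3QSStatement`
  (`p`-primary classes of `H³` of a layer die in a bigger layer inside `ℚ_S`), `PPartStatement`
  (the `p`-primary projector of `ℚ/ℤ`), and `LamStatement` (L2-P: the invariants of
  `H²(G_S(F), P_S)` with the unramified formula).
-/
import Fermat.Agent.S55.H70.GSModelP
import Fermat.Agent.S55.H74.GalLayerPres
import Fermat.Agent.S55.H29.C8Rec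
import Fermat.Agent.S55.H88.SData
import Fermat.Agent.S55.H80.ResIndexCor

set_option autoImplicit false

open CategoryTheory

noncomputable section

namespace Fermat.Agent.S55.H70

open Fermat.Agent.S55 Fermat.Agent.S55.H23

local notation "Qb" => AlgebraicClosure ℚ

attribute [local instance] H88.factOfPrimes

/-- A finite intermediate field of `ℚ̄/ℚ` is a number field. -/
theorem numberField_of_unr {S : Finset Nat.Primes} {F : IntermediateField ℚ Qb}
    (hF : F.IsUnramifiedOutside S) : NumberField ↥F :=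
  haveI : FiniteDimensional ℚ ↥F := hF.1
  ⟨⟩

/-- The top field of a layer is a number field. -/
theorem numberField_layer {S : Finset Nat.Primes} {F : IntermediateField ℚ Qb}
    (L : H74.QSLayer S F) : NumberField ↥L.K :=
  haveI : FiniteDimensional ℚ ↥L.K := L.finiteDimensional_rat
  ⟨⟩

/-- The concrete finite-level data for `F`: Galois layers inside `ℚ_S`, finite places of `F`,
C5's local invariants. -/
abbrev finalInv (S : Finset Nat.Primes) (F : IntermediateField ℚ Qb)
    (hF : F.IsUnramifiedOutside S) (pp : H66.QZ →+ H66.QZ)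
    (lam : H88.FinPlace ↥F → HP S F 2 →+ H66.QZ) : FinInvP S F H66.QZ where
  P2 := H74.presQS S F hF 2
  P3 := H74.presQS S F hF 3
  V := H88.FinPlace ↥F
  VS := haveI := numberField_of_unr hF; H88.sPlaces ↥F S
  linv₀ L v := (H88.layerOf ↥F ↥L.K).linv v
  pp := pp
  lam := lam

/-- **Leaf (PP)**: the `p`-primary projector of `ℚ/ℤ`, and `p`-divisibility. -/
def PPartStatement (p : ℕ) : Prop :=
  (∀ a : H66.QZ, IsPPrimary p a → ∃ a' : H66.QZ, IsPPrimary p a' ∧ p • a' = a) ∧
  ∃ pp : H66.QZ →+ H66.QZ, (∀ t, IsPPrimary p t → pp t = t) ∧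
    ∀ (t : H66.QZ) (m : ℕ), ¬ p ∣ m → m • t = 0 → pp t = 0

/-- **Leaf (CYC-TOWER)**: over a field `F ⊆ ℚ_S` containing `μ_p` there are cyclic layers of
`p`-power degree inside `ℚ_S` whose local degrees at finitely many given finite places are
divisible by a given power of `p` (the layers of the cyclotomic `ℤ_p`-extension). -/
def CycTowerStatement (p : ℕ) (S : Finset Nat.Primes) : Prop :=
  ∀ (F : IntermediateField ℚ Qb), F.IsUnramifiedOutside S →
    (∀ ζ : Qb, ζ ^ p = 1 → ζ ∈ F) → ∀ (W : Finset (H88.FinPlace ↥F)) (c : ℕ),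
      ∃ L : H74.QSLayer S F, IsCyclic (↥L.K ≃ₐ[↥F] ↥L.K) ∧
        (∃ n : ℕ, Module.finrank ↥F ↥L.K = p ^ n) ∧
        ∀ v ∈ W, p ^ c ∣ H29.locDegAt ↥F ↥L.K v

/-- **Leaf (H3-QS)** (C8 export (B4) in consumer form): a `p`-primary class of
`H³(Gal(K/F), Kˣ)`, `K` a layer inside `ℚ_S`, dies in a bigger layer inside `ℚ_S`. -/
def H3QSStatement (p : ℕ) (S : Finset Nat.Primes) : Prop :=
  ∀ (F : IntermediateField ℚ Qb), F.IsUnramifiedOutside S →
    (∀ ζ : Qb, ζ ^ p = 1 → ζ ∈ F) → ∀ (L : H74.QSLayer S F)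
      (x : groupCohomology (Rep.ofAlgebraAutOnUnits ↥F ↥L.K) 3), IsPPrimary p x →
      ∃ (L' : H74.QSLayer S F) (h : L.K ≤ L'.K), H74.layerTr F h 3 x = 0

/-- **Leaf (L2-P + HLAM)**: the invariants `lam v` of `H²_lc(G_S(F), P_S)` at the finite places
of `F`, with (Pa), (Pb), (Pb-fin) and the unramified formula `lam v ∘ π = pp ∘ linv v` at the
places outside `S`. -/
def LamStatement (p : ℕ) (S : Finset Nat.Primes) (pp : H66.QZ →+ H66.QZ) : Prop :=
  ∀ (F : IntermediateField ℚ Qb) (hF : F.IsUnramifiedOutside S),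
    (∀ ζ : Qb, ζ ^ p = 1 → ζ ∈ F) →
    ∃ lam : H88.FinPlace ↥F → HP S F 2 →+ H66.QZ,
      (∀ c : HP S F 1, IsPPrimary p c → c = 0) ∧
      (∀ c : HP S F 2, IsPPrimary p c → (∀ v : H88.FinPlace ↥F, v.1 ∉ S → lam v c = 0) → c = 0) ∧
      (∀ c : HP S F 2, ∃ W : Finset (H88.FinPlace ↥F), ∀ v, v ∉ W → lam v c = 0) ∧
      ∀ v : H88.FinPlace ↥F, v.1 ∉ S → ∀ (L : H74.QSLayer S F)
        (a : groupCohomology (Rep.ofAlgebraAutOnUnits ↥F ↥L.K) 2),
        lam v (gsPi2 F (H74.inflK S F L.K L.unr 2 a)) = pp ((H88.layerOf ↥F ↥L.K).linv v a)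

section Assembly

variable {p : ℕ} [Fact p.Prime] {S : Finset Nat.Primes}

/-- A number field has a finite place above every prime. -/
theorem sPlaces_nonempty (hS : S.Nonempty) (F : IntermediateField ℚ Qb) [NumberField ↥F] :
    (H88.sPlaces ↥F S).Nonempty := by
  obtain ⟨q, hq⟩ := hS
  haveI : Algebra.IsAlgebraic ℚ ↥F := Algebra.IsAlgebraic.of_finite ℚ ↥F
  let τ : ↥F →ₐ[ℚ] PadicAlgCl (q : ℕ) := IsAlgClosed.lift
  exact ⟨⟨q, H88.placeOf (q : ℕ) τ.toRingHom⟩, H88.mem_sPlaces_iff.2 hq⟩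

/-- A layer of `F` inside `ℚ_S` is a layer of number fields in the sense of C8. -/
theorem nfLayer_layer {F : IntermediateField ℚ Qb} (hF : F.IsUnramifiedOutside S)
    (L : H74.QSLayer S F) : H29.NFLayer (H88.layerOf ↥F ↥L.K) :=
  ⟨↥F, ↥L.K, inferInstance, numberField_of_unr hF, inferInstance, numberField_layer L,
    inferInstance, inferInstance, rfl⟩

/-- (X0) from C8's `InflCompatStatement`. -/
theorem compat_layer (hInfl : H29.InflCompatStatement) {F : IntermediateField ℚ Qb}
    (hF : F.IsUnramifiedOutside S) (L L' : H74.QSLayer S F) (h : L.K ≤ L'.K)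
    (v : H88.FinPlace ↥F) (a : groupCohomology (Rep.ofAlgebraAutOnUnits ↥F ↥L.K) 2) :
    (H88.layerOf ↥F ↥L'.K).linv v (H74.layerTr F h 2 a) = (H88.layerOf ↥F ↥L.K).linv v a := by
  letI := H74.layerAlgebra F h
  haveI := H74.layerTower F h
  haveI := numberField_of_unr hF
  haveI := numberField_layer L
  haveI := numberField_layer L'
  exact hInfl ↥F ↥L.K ↥L'.K v a

/-- The final assembly of the arithmetic input of C9b. -/
theorem finInvPStatement_of_leaves (hp2 : p ≠ 2)
    (hPP : PPartStatement p)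
    (hInfl : H29.InflCompatStatement)
    (hHasse : H29.HassePStatement H29.NFLayer p)
    (hRec : H29.RecStatement H29.NFLayer p)
    (hEx : H29.CyclicExStatement p)
    (hCyc : CycTowerStatement p S)
    (hH3 : H3QSStatement p S)
    (hSne : S.Nonempty)
    (hLam : ∀ pp : H66.QZ →+ H66.QZ, (∀ t, IsPPrimary p t → pp t = t) →
      (∀ (t : H66.QZ) (m : ℕ), ¬ p ∣ m → m • t = 0 → pp t = 0) → LamStatement p S pp) :
    FinInvPStatement p S H66.QZ := by
  intro F hF hμ
  obtain ⟨hdiv, pp, hpp1, hpp2⟩ := hPP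
  obtain ⟨lam, hPa, hPb, hPbfin, hlam⟩ := hLam pp hpp1 hpp2 F hF hμ
  haveI := numberField_of_unr hF
  have hpr : p.Prime := Fact.out
  refine ⟨finalInv S F hF pp lam, ?_⟩
  refine
    { hdiv := hdiv
      VSne := sPlaces_nonempty hSne F
      pp_id := hpp1
      pp_kill := hpp2
      compat := fun L L' h v a => compat_layer hInfl hF L L' h v a
      hasse := fun L a ha h => hHasse _ (nfLayer_layer hF L) a ha h
      recip := ?_
      exist := ?_
      h3 := fun L a ha => hH3 F hF hμ L a ha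
      hPa := hPa
      hPb := fun c hc h => hPb c hc fun v hv => h v (fun hv' => hv (H88.mem_sPlaces_iff.1 hv'))
      hPbfin := hPbfin
      hlam := fun v hv L a => hlam v (fun hv' => hv (H88.mem_sPlaces_iff.2 hv')) L a }
  · -- reciprocity
    intro L a ha W hW
    have h1 : ∑ᶠ v, (H88.layerOf ↥F ↥L.K).linv v a = 0 := hRec _ (nfLayer_layer hF L) a ha
    rw [← h1]
    refine (finsum_eq_sum_of_support_subset _ ?_).symm
    intro v hv
    by_contra hvW
    exact hv (hW v hvW)
  · -- existence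
    intro t W ht hW hsum
    classical
    choose kk hkk using ht
    obtain ⟨L, hcyc, hn, hdeg⟩ := hCyc F hF hμ W (W.sup kk)
    haveI := numberField_layer L
    haveI := hcyc
    have hζ : ∃ ζ : ↥F, IsPrimitiveRoot ζ p := by
      haveI : NeZero (p : Qb) := ⟨by exact_mod_cast hpr.ne_zero⟩
      haveI : NeZero p := ⟨hpr.ne_zero⟩
      obtain ⟨ζ, hζ⟩ := HasEnoughRootsOfUnity.exists_primitiveRoot Qb p
      refine ⟨⟨ζ, hμ ζ hζ.pow_eq_one⟩, ?_⟩
      exact IsPrimitiveRoot.of_map_of_injective (f := algebraMap ↥F Qb)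
        (hf := (algebraMap ↥F Qb).injective) hζ
    have hex := hEx hpr hp2 ↥F ↥L.K hζ hn
    have hfin : (Function.support t).Finite :=
      W.finite_toSet.subset fun v hv => by
        by_contra hvW
        exact hv (hW v hvW)
    have hd : ∀ v, H29.locDegAt ↥F ↥L.K v • t v = 0 := by
      intro v
      by_cases hv : v ∈ W
      · obtain ⟨m, hm⟩ := hdeg v hv
        obtain ⟨j, hj⟩ : p ^ kk v ∣ p ^ W.sup kk := pow_dvd_pow p (Finset.le_sup hv)
        have e : H29.locDegAt ↥F ↥L.K v = (j * m) * p ^ kk v := by rw [hm, hj]; ring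
        rw [e, mul_smul, hkk v, smul_zero]
      · rw [hW v hv, smul_zero]
    have hs : ∑ᶠ v, t v = 0 := by
      rw [finsum_eq_sum_of_support_subset t (s := W) (fun v hv => by
        by_contra hvW
        exact hv (hW v hvW))]
      exact hsum
    obtain ⟨α, hα⟩ := hex t hfin hd hs
    refine ⟨L, α, ?_, hα⟩
    obtain ⟨n, hn⟩ := hn
    refine ⟨n, ?_⟩
    have hc := H80.card_smul_eq_zero (Rep.ofAlgebraAutOnUnits ↥F ↥L.K) 2 (Or.inr rfl) α
    rw [IsGalois.card_aut_eq_finrank, hn] at hc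
    exact hc

end Assembly

end Fermat.Agent.S55.H70
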