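/-
Program C (S55, Poitou–Tate): THE TOP CHAIN (stage 0, coordinator helper70).

`s55_of_leaves` proves the frozen conclusion of S55 from a cohomology package `PTPackage p S`
(data, built by C0 + C2) and the following Prop-valued package conclusions:

* `DualAdmStatement`  (C0)  : `X ↦ X' := X.dualTwist (cycloChar p)` preserves admissibility;
* `PTPackage.Bridge`  (C0)  : `H 2`, `H 1` of the package inject into the Prelude objects and
                              `sha₂`, `sha₁` are the images of the compactly supported groups;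
* `PTPackage.BidualInj` (C0/C2) : `H²(M) → H²(M'')` is injective;
* `PTPackage.Adjoint` (C2)  : the two pairings agree (up to a unit) on `H²_c(M) × H¹_c(M')`;
* `PTPackage.Step`    (C10) : resolution by a free module + four lemma (needs the two long exact
                              sequences (C0) and naturality / δ-compatibility of the pairing (C2));
* `PTPackage.BaseCases` (C9): for `F_L = 𝔽_p[G_ℚ / G_L]`: `α¹` epi, `α²` iso, `α³` mono;
* `PTPackage.Start`   (C4 + C2) : `α³_K` epi for every admissible `K`.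

No finiteness of `H^i_c` is needed.
-/
import Fermat.Prelude.Def_GroupCohomology_ContinuousUnramified

set_option autoImplicit false

open CategoryTheory Module groupCohomology ExtCitation

namespace Fermat.Agent.S55.H70

section LinearAlgebra

variable {k : Type*} [Field k]

/-- Adjoint maps `j`, `j'` whose pairings have trivial kernels on the target sides: the ranges of
`j'` and `j` carry a form that is nondegenerate on both sides.  No finiteness. -/
theorem exists_pairing_range_of_adjoint {A B A' B' : Type*} [AddCommGroup A] [Module k A]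
    [AddCommGroup B] [Module k B] [AddCommGroup A'] [Module k A'] [AddCommGroup B'] [Module k B']
    (j : A →ₗ[k] B) (j' : A' →ₗ[k] B')
    (P : A →ₗ[k] B' →ₗ[k] k) (P' : B →ₗ[k] A' →ₗ[k] k)
    (hadj : ∀ x y, P x (j' y) = P' (j x) y)
    (hP' : ∀ b, (∀ y, P' b y = 0) → b = 0)
    (hP : ∀ b', (∀ x, P x b' = 0) → b' = 0) :
    ∃ Bil : LinearMap.range j' →ₗ[k] LinearMap.range j →ₗ[k] k,
      (∀ y, (∀ x, Bil y x = 0) → y = 0) ∧ (∀ x, (∀ y, Bil y x = 0) → x = 0) := by
  obtain ⟨s, hs⟩ := j.rangeRestrict.exists_rightInverse_of_surjective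
    (LinearMap.range_rangeRestrict j)
  have hs' : ∀ b : LinearMap.range j, j (s b) = b := fun b => by
    have h1 := congrArg (fun f : LinearMap.range j →ₗ[k] LinearMap.range j => ((f b : _) : B)) hs
    simpa using h1
  refine ⟨(P ∘ₗ s).flip ∘ₗ (LinearMap.range j').subtype, ?_, ?_⟩
  · rintro ⟨b', y, rfl⟩ h
    have h0 : j' y = 0 := hP _ fun x => by
      have h1 := h ⟨j x, x, rfl⟩
      simp only [LinearMap.coe_comp, Function.comp_apply, Submodule.subtype_apply,
        LinearMap.flip_apply] at h1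
      rw [hadj, hs'] at h1
      rw [hadj]
      exact h1
    exact Subtype.ext h0
  · rintro b h
    have h0 : (b : B) = 0 := hP' _ fun y => by
      have h1 := h ⟨j' y, y, rfl⟩
      simp only [LinearMap.coe_comp, Function.comp_apply, Submodule.subtype_apply,
        LinearMap.flip_apply] at h1
      rw [hadj, hs'] at h1
      exact h1
    exact Subtype.ext h0

/-- The same, transported along injections of the targets. -/
theorem exists_pairing_of_adjoint_noFin {A B A' B' C C' : Type*} [AddCommGroup A] [Module k A]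
    [AddCommGroup B] [Module k B] [AddCommGroup A'] [Module k A'] [AddCommGroup B'] [Module k B']
    [AddCommGroup C] [Module k C] [AddCommGroup C'] [Module k C']
    (j : A →ₗ[k] B) (j' : A' →ₗ[k] B')
    (P : A →ₗ[k] B' →ₗ[k] k) (P' : B →ₗ[k] A' →ₗ[k] k)
    (hadj : ∀ x y, P x (j' y) = P' (j x) y)
    (hP' : ∀ b, (∀ y, P' b y = 0) → b = 0)
    (hP : ∀ b', (∀ x, P x b' = 0) → b' = 0)
    (ι : B →ₗ[k] C) (hι : Function.Injective ι) (ι' : B' →ₗ[k] C') (hι' : Function.Injective ι')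
    (X : Submodule k C') (Y : Submodule k C)
    (hX : X = (LinearMap.range j').map ι') (hY : Y = (LinearMap.range j).map ι) :
    ∃ Bil : X →ₗ[k] Y →ₗ[k] k,
      (∀ y, (∀ x, Bil y x = 0) → y = 0) ∧ (∀ x, (∀ y, Bil y x = 0) → x = 0) := by
  subst hX hY
  obtain ⟨Bil, h1, h2⟩ := exists_pairing_range_of_adjoint j j' P P' hadj hP' hP
  let eX := Submodule.equivMapOfInjective ι' hι' (LinearMap.range j')
  let eY := Submodule.equivMapOfInjective ι hι (LinearMap.range j)
  refine ⟨Bil.compl₁₂ eX.symm.toLinearMap eY.symm.toLinearMap, ?_, ?_⟩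
  · intro y hy
    have h3 : eX.symm y = 0 := h1 _ fun x => by
      have := hy (eY x)
      simpa [LinearMap.compl₁₂_apply] using this
    simpa using h3
  · intro x hx
    have h3 : eY.symm x = 0 := h2 _ fun y => by
      have := hx (eX y)
      simpa [LinearMap.compl₁₂_apply] using this
    simpa using h3

/-- A surjection onto the dual has trivial kernel on the other side. -/
theorem rightKer_trivial_of_surjective {V W : Type*} [AddCommGroup V] [Module k V]
    [AddCommGroup W] [Module k W] (B : V →ₗ[k] W →ₗ[k] k) (hB : Function.Surjective B)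
    (w : W) (hw : ∀ v, B v w = 0) : w = 0 := by
  rw [← Module.forall_dual_apply_eq_zero_iff k w]
  intro φ
  obtain ⟨v, rfl⟩ := hB φ
  exact hw v

end LinearAlgebra

/-- The absolute Galois group of `ℚ`. -/
abbrev GQ : Type := AlgebraicClosure ℚ ≃ₐ[ℚ] AlgebraicClosure ℚ

section Package

variable (p : ℕ) [Fact p.Prime] (S : Finset Nat.Primes)

/-- The Tate dual `X' = X^∨(1)`. -/
noncomputable abbrev D (X : Rep.{0, 0, 0} (ZMod p) GQ) : Rep.{0, 0, 0} (ZMod p) GQ :=
  X.dualTwist (cycloChar p)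

/-- Admissible coefficient modules: the hypotheses of S55. -/
def IsAdm (X : Rep.{0, 0, 0} (ZMod p) GQ) : Prop :=
  FiniteDimensional (ZMod p) X ∧
  (∀ m : X, ∃ F : IntermediateField ℚ (AlgebraicClosure ℚ), FiniteDimensional ℚ F ∧
      ∀ s ∈ F.fixingSubgroup, X.ρ s m = m) ∧
  (∀ q : Nat.Primes, q ∉ S → ∀ A : ValuationSubring (AlgebraicClosure ℚ),
      A.LiesOverPrime (q : ℕ) → ∀ g ∈ A.inertiaSubgroupIn ℚ, X.ρ g = 1)

/-- (C0) The Tate dual of an admissible module is admissible (`p ∈ S`). -/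
def DualAdmStatement : Prop :=
  ∀ X : Rep.{0, 0, 0} (ZMod p) GQ, IsAdm p S X → IsAdm p S (D p X)

/-- The level fields of the base cases: finite Galois over `ℚ`, unramified outside `S`,
containing `μ_p`. -/
def IsLevelField (L : IntermediateField ℚ (AlgebraicClosure ℚ)) : Prop :=
  L.IsUnramifiedOutside S ∧ IsGalois ℚ L ∧ ∀ ζ : AlgebraicClosure ℚ, ζ ^ p = 1 → ζ ∈ L

/-- The base module `F_L = 𝔽_p[G_ℚ / G_L]` (the regular representation of `Gal(L/ℚ)`). -/
noncomputable abbrev baseRep (L : IntermediateField ℚ (AlgebraicClosure ℚ)) :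
    Rep.{0, 0, 0} (ZMod p) GQ :=
  Rep.ofMulAction (ZMod p) GQ (GQ ⧸ L.fixingSubgroup)

/-- The data that the cochain model (C0) and the cup products (C2) deliver to the formal top:
`H i X = H^i(G_S, X)` (level-`S`-constant cochains), `Hc i X = H^i_c(G_S, X)` (cone over the finite
places of `S`), the forget-support map, the pairing
`H^i_c(X) × H^j(X') → H^3_c(μ_p) → 𝔽_p` (used for `i + j = 3`), the map induced on `H²` by
biduality, and the comparison maps to the Prelude objects. -/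
structure PTPackage where
  H : ℕ → Rep.{0, 0, 0} (ZMod p) GQ → ModuleCat.{0} (ZMod p)
  Hc : ℕ → Rep.{0, 0, 0} (ZMod p) GQ → ModuleCat.{0} (ZMod p)
  forget : ∀ (i : ℕ) (X : Rep.{0, 0, 0} (ZMod p) GQ), Hc i X →ₗ[ZMod p] H i X
  pair : ∀ (i j : ℕ) (X : Rep.{0, 0, 0} (ZMod p) GQ),
    Hc i X →ₗ[ZMod p] H j (D p X) →ₗ[ZMod p] ZMod p
  bidual : ∀ X : Rep.{0, 0, 0} (ZMod p) GQ, H 2 X →ₗ[ZMod p] H 2 (D p (D p X))
  toH2S : ∀ X : Rep.{0, 0, 0} (ZMod p) GQ, H 2 X →ₗ[ZMod p] continuousH2S S X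
  toH1 : ∀ X : Rep.{0, 0, 0} (ZMod p) GQ, H 1 X →ₗ[ZMod p] groupCohomology.H1 X

namespace PTPackage

variable {p S} (pkg : PTPackage p S)

/-- `α^i_X : H^i_c(X) → H^j(X')^∨` is surjective. -/
def Epi (i j : ℕ) (X : Rep.{0, 0, 0} (ZMod p) GQ) : Prop :=
  Function.Surjective (pkg.pair i j X)

/-- `α^i_X : H^i_c(X) → H^j(X')^∨` is injective. -/
def Mono (i j : ℕ) (X : Rep.{0, 0, 0} (ZMod p) GQ) : Prop :=
  Function.Injective (pkg.pair i j X)

/-- (C10 conclusion) `α¹` and `α²` are surjective on all admissible modules. -/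
def Duality : Prop :=
  ∀ M : Rep.{0, 0, 0} (ZMod p) GQ, IsAdm p S M → pkg.Epi 2 1 M ∧ pkg.Epi 1 2 M

/-- (C0) Bridge to the Prelude objects. -/
def Bridge : Prop :=
  ∀ M : Rep.{0, 0, 0} (ZMod p) GQ, IsAdm p S M →
    Function.Injective (pkg.toH2S M) ∧ Function.Injective (pkg.toH1 M) ∧
    sha₂ S M = (LinearMap.range (pkg.forget 2 M)).map (pkg.toH2S M) ∧
    sha₁ S M = (LinearMap.range (pkg.forget 1 M)).map (pkg.toH1 M)

/-- (C0 / C2) Biduality is injective on `H²`. -/
def BidualInj : Prop :=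
  ∀ M : Rep.{0, 0, 0} (ZMod p) GQ, IsAdm p S M → Function.Injective (pkg.bidual M)

/-- (C2) Adjointness on `H²_c(M) × H¹_c(M')`, up to a unit. -/
def Adjoint : Prop :=
  ∀ M : Rep.{0, 0, 0} (ZMod p) GQ, IsAdm p S M → ∃ u : (ZMod p)ˣ,
    ∀ (x : pkg.Hc 2 M) (y : pkg.Hc 1 (D p M)),
      pkg.pair 2 1 M x (pkg.forget 1 (D p M) y) =
        (u : ZMod p) * pkg.pair 1 2 (D p M) y (pkg.bidual M (pkg.forget 2 M x))

/-- (C9) The base cases, for `F_L = 𝔽_p[G_ℚ / G_L]`. -/
def BaseCases : Prop :=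
  ∀ L : IntermediateField ℚ (AlgebraicClosure ℚ), IsLevelField p S L →
    pkg.Epi 1 2 (baseRep p L) ∧ pkg.Epi 2 1 (baseRep p L) ∧ pkg.Mono 2 1 (baseRep p L) ∧
      pkg.Mono 3 0 (baseRep p L)

/-- (C4 + C2) The start of the induction: `α³` is surjective on all admissible modules. -/
def Start : Prop :=
  ∀ K : Rep.{0, 0, 0} (ZMod p) GQ, IsAdm p S K → pkg.Epi 3 0 K

/-- (C10) Resolution + four lemma. -/
def Step : Prop :=
  ∀ M : Rep.{0, 0, 0} (ZMod p) GQ, IsAdm p S M →
    ∃ L : IntermediateField ℚ (AlgebraicClosure ℚ), IsLevelField p S L ∧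
    ∃ K : Rep.{0, 0, 0} (ZMod p) GQ, IsAdm p S K ∧
      (pkg.Epi 2 1 (baseRep p L) → pkg.Epi 3 0 K → pkg.Mono 3 0 (baseRep p L) → pkg.Epi 2 1 M) ∧
      (pkg.Epi 1 2 (baseRep p L) → pkg.Epi 2 1 K → pkg.Mono 2 1 (baseRep p L) → pkg.Epi 1 2 M)

/-- **C10 from C9**: the dévissage. -/
theorem duality_of_step (hstep : pkg.Step) (hbase : pkg.BaseCases) (hstart : pkg.Start) :
    pkg.Duality := by
  have e2 : ∀ M : Rep.{0, 0, 0} (ZMod p) GQ, IsAdm p S M → pkg.Epi 2 1 M := by
    intro M hM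
    obtain ⟨L, hL, K, hK, h2, -⟩ := hstep M hM
    obtain ⟨-, hb2, -, hb4⟩ := hbase L hL
    exact h2 hb2 (hstart K hK) hb4
  intro M hM
  refine ⟨e2 M hM, ?_⟩
  obtain ⟨L, hL, K, hK, -, h1⟩ := hstep M hM
  obtain ⟨hb1, -, hb3, -⟩ := hbase L hL
  exact h1 hb1 (e2 K hK) hb3

/-- **S55 from C10**: the frozen conclusion from the duality statement. -/
theorem s55_of_duality (hDA : DualAdmStatement p S) (hbr : pkg.Bridge) (hbi : pkg.BidualInj)
    (hadj : pkg.Adjoint) (hdual : pkg.Duality)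
    (M : Rep.{0, 0, 0} (ZMod p) GQ) (hM : IsAdm p S M) :
    ∃ B : sha₁ S (M.dualTwist (cycloChar p)) →ₗ[ZMod p] sha₂ S M →ₗ[ZMod p] ZMod p,
      (∀ y, (∀ x, B y x = 0) → y = 0) ∧ (∀ x, (∀ y, B y x = 0) → x = 0) := by
  have hM' : IsAdm p S (D p M) := hDA M hM
  obtain ⟨u, hu⟩ := hadj M hM
  have hb := hbr M hM
  have hb' := hbr (D p M) hM'
  have hι2 := hb.1
  have hs2 := hb.2.2.1
  have hι1 := hb'.2.1
  have hs1 := hb'.2.2.2
  have hE2 := (hdual M hM).1
  have hE1 := (hdual (D p M) hM').2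
  exact exists_pairing_of_adjoint_noFin (k := ZMod p) (pkg.forget 2 M)
    (pkg.forget 1 (D p M)) (pkg.pair 2 1 M)
    ((u : ZMod p) • ((pkg.pair 1 2 (D p M)).flip ∘ₗ pkg.bidual M))
    (fun x y => hu x y)
    (fun b hb => by
      apply hbi M hM
      rw [map_zero]
      refine rightKer_trivial_of_surjective _ hE1 _ fun y => ?_
      exact (Units.mul_right_eq_zero u).mp (hb y))
    (fun b' hb' => rightKer_trivial_of_surjective _ hE2 _ hb')
    (pkg.toH2S M) hι2 (pkg.toH1 (D p M)) hι1 (sha₁ S (D p M)) (sha₂ S M) hs1 hs2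

end PTPackage

/-- **THE TOP CHAIN**: S55 from the package conclusions. -/
theorem s55_of_leaves (pkg : PTPackage p S)
    (hDA : DualAdmStatement p S) (hbr : pkg.Bridge) (hbi : pkg.BidualInj) (hadj : pkg.Adjoint)
    (hstep : pkg.Step) (hbase : pkg.BaseCases) (hstart : pkg.Start)
    (M : Rep (ZMod p) (AlgebraicClosure ℚ ≃ₐ[ℚ] AlgebraicClosure ℚ))
    [FiniteDimensional (ZMod p) M]
    (hsm : ∀ m : M, ∃ F : IntermediateField ℚ (AlgebraicClosure ℚ), FiniteDimensional ℚ F ∧
      ∀ s ∈ F.fixingSubgroup, M.ρ s m = m)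
    (hMur : ∀ q : Nat.Primes, q ∉ S → ∀ A : ValuationSubring (AlgebraicClosure ℚ),
      A.LiesOverPrime (q : ℕ) → ∀ g ∈ A.inertiaSubgroupIn ℚ, M.ρ g = 1) :
    ∃ B : sha₁ S (M.dualTwist (cycloChar p)) →ₗ[ZMod p] sha₂ S M →ₗ[ZMod p] ZMod p,
      (∀ y, (∀ x, B y x = 0) → y = 0) ∧ (∀ x, (∀ y, B y x = 0) → x = 0) :=
  pkg.s55_of_duality hDA hbr hbi hadj (pkg.duality_of_step hstep hbase hstart) M
    ⟨inferInstance, hsm, hMur⟩

end Package

end Fermat.Agent.S55.H70
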