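/-
Program C (S55, Poitou–Tate): THE TOP CHAIN, ROUTE R (helper87's shortcut, adopted 09:40Z).

S55 follows from ONE global duality in bidegree (2,1) and a local criterion:

* (G)  `α_M : H²(G_S, M) → H¹_c(G_S, M')^∨` is bijective for every admissible `M`;
* (LC) `x ∈ sha₂ S M ↔ x ⊥ I_{M'}`, where `I_N ⊆ H¹_c(G_S, N)` is the image of `⊕_v H⁰(G_v, N)`
       (this is local injectivity (L) `H²(G_v, M) ↪ H⁰(G_v, M')^∨` + the compatibility (C)
       `⟨x, ι_v m⟩ = inv_v (m_* loc_v x)` + vanishing of the archimedean `H²`, `p` odd);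
* (BR) `H¹_c(G_S, N) / I_N ≅ sha₁ S N`.

(G) is reduced, by a one-degree dévissage along free presentations, to the base case
`F_L = 𝔽_p[G_ℚ / G_L]`.  Here `H²(G_S, M)` is the Prelude's `continuousH2S S M`; the package only
carries `H¹_c` and the pairing.
-/
import Fermat.Agent.S55.H70.Chain

set_option autoImplicit false

open CategoryTheory Module groupCohomology ExtCitation

namespace Fermat.Agent.S55.H70

section LinearAlgebra

variable {k : Type*} [Field k]

/-- (T1) A bijective `α : V → W^∨`, a subspace `I ⊆ W`, `Y = I^⊥ ⊆ V` and `X ≅ W / I`: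
`X` and `Y` carry a form that is nondegenerate on both sides.  No finiteness. -/
theorem exists_pairing_of_bijective {V W C : Type*} [AddCommGroup V] [Module k V]
    [AddCommGroup W] [Module k W] [AddCommGroup C] [Module k C]
    (B : V →ₗ[k] W →ₗ[k] k) (hB : Function.Bijective B)
    (I : Submodule k W) (τ : W →ₗ[k] C) (hτ : LinearMap.ker τ = I)
    (X : Submodule k C) (hX : X = LinearMap.range τ)
    (Y : Submodule k V) (hY : ∀ x, x ∈ Y ↔ ∀ f ∈ I, B x f = 0) :
    ∃ Bil : X →ₗ[k] Y →ₗ[k] k,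
      (∀ y, (∀ x, Bil y x = 0) → y = 0) ∧ (∀ x, (∀ y, Bil y x = 0) → x = 0) := by
  subst hX
  obtain ⟨s, hs⟩ := τ.rangeRestrict.exists_rightInverse_of_surjective
    (LinearMap.range_rangeRestrict τ)
  have hs' : ∀ y : LinearMap.range τ, τ (s y) = y := fun y => by
    have h1 := congrArg (fun f : LinearMap.range τ →ₗ[k] LinearMap.range τ => ((f y : _) : C)) hs
    simpa using h1
  refine ⟨(B.flip ∘ₗ s).compl₂ Y.subtype, ?_, ?_⟩
  · intro y hy
    have hmem : s y ∈ I := by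
      by_contra hn
      obtain ⟨φ, hφ, hI⟩ := Submodule.exists_le_ker_of_notMem hn
      obtain ⟨x, rfl⟩ := hB.2 φ
      have hxY : x ∈ Y := (hY x).2 fun f hf => hI hf
      exact hφ (hy ⟨x, hxY⟩)
    have h0 : τ (s y) = 0 := by
      rw [← hτ] at hmem
      exact hmem
    rw [hs'] at h0
    exact Subtype.ext h0
  · intro x hx
    have hBx : B (x : V) = 0 := by
      ext w
      have h1 : w - s (τ.rangeRestrict w) ∈ I := by
        rw [← hτ, LinearMap.mem_ker, map_sub, hs']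
        simp
      have h2 := (hY x).1 x.2 _ h1
      have h3 := hx (τ.rangeRestrict w)
      simp only [LinearMap.compl₂_apply, LinearMap.coe_comp, Function.comp_apply,
        LinearMap.flip_apply, Submodule.subtype_apply] at h3
      rw [map_sub, h3, sub_zero] at h2
      simpa using h2
    exact Subtype.ext (hB.1 (by rw [hBx, Submodule.coe_zero, map_zero]))

end LinearAlgebra

section PackageR

variable (p : ℕ) [Fact p.Prime] (S : Finset Nat.Primes)

/-- The data of Route R: `Hc1 N = H¹_c(G_S, N)` (pairs `(n, (m_v)_{v ∈ S})`, `n` a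
level-`S`-constant 1-cocycle, `m_v ∈ N` with `n = d m_v` on the local group at the finite place
`v`, modulo `(dm, (m)_v)`), the subspace `loc0 N = {(0, (m_v))}` (image of `⊕_v H⁰(G_v, N)`),
the map `(n, m) ↦ [n]` to the abstract `H¹`, and the pairing
`H²(G_S, M) × H¹_c(G_S, M') → 𝔽_p`. -/
structure RPackage where
  Hc1 : Rep.{0, 0, 0} (ZMod p) GQ → ModuleCat.{0} (ZMod p)
  loc0 : ∀ N : Rep.{0, 0, 0} (ZMod p) GQ, Submodule (ZMod p) (Hc1 N)
  toH1 : ∀ N : Rep.{0, 0, 0} (ZMod p) GQ, Hc1 N →ₗ[ZMod p] groupCohomology.H1 N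
  pairing : ∀ M : Rep.{0, 0, 0} (ZMod p) GQ,
    continuousH2S S M →ₗ[ZMod p] Hc1 (D p M) →ₗ[ZMod p] ZMod p

namespace RPackage

variable {p S} (pkg : RPackage p S)

/-- (BR) `H¹_c(N) / I_N ≅ sha₁ S N`. -/
def Bridge : Prop :=
  ∀ N : Rep.{0, 0, 0} (ZMod p) GQ, IsAdm p S N →
    LinearMap.ker (pkg.toH1 N) = pkg.loc0 N ∧ sha₁ S N = LinearMap.range (pkg.toH1 N)

/-- (LC) `sha₂ S M = (I_{M'})^⊥`. -/
def LocalCriterion : Prop :=
  ∀ M : Rep.{0, 0, 0} (ZMod p) GQ, IsAdm p S M → ∀ x : continuousH2S S M,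
    x ∈ sha₂ S M ↔ ∀ f ∈ pkg.loc0 (D p M), pkg.pairing M x f = 0

/-- (G) The global duality in bidegree (2,1). -/
def GlobalDuality : Prop :=
  ∀ M : Rep.{0, 0, 0} (ZMod p) GQ, IsAdm p S M → Function.Bijective (pkg.pairing M)

/-- Base case (G_L): `F_L = 𝔽_p[G_ℚ / G_L]`. -/
def BaseCase : Prop :=
  ∀ L : IntermediateField ℚ (AlgebraicClosure ℚ), IsLevelField p S L →
    Function.Bijective (pkg.pairing (baseRep p L))

/-- Dévissage, surjectivity: `M` is a quotient of `F_L^n`; `H¹_c(M') ↪ H¹_c((F_L^n)')`. -/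
def StepEpi : Prop :=
  ∀ M : Rep.{0, 0, 0} (ZMod p) GQ, IsAdm p S M →
    ∃ L : IntermediateField ℚ (AlgebraicClosure ℚ), IsLevelField p S L ∧
      (Function.Surjective (pkg.pairing (baseRep p L)) → Function.Surjective (pkg.pairing M))

/-- Dévissage, injectivity: `0 → K → F_L^n → M → 0`; uses `H²(F_L^n) ↠ H²(M)` (`cd_p G_S ≤ 2`). -/
def StepMono : Prop :=
  ∀ M : Rep.{0, 0, 0} (ZMod p) GQ, IsAdm p S M →
    ∃ L : IntermediateField ℚ (AlgebraicClosure ℚ), IsLevelField p S L ∧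
    ∃ K : Rep.{0, 0, 0} (ZMod p) GQ, IsAdm p S K ∧
      (Function.Injective (pkg.pairing (baseRep p L)) → Function.Surjective (pkg.pairing K) →
        Function.Injective (pkg.pairing M))

/-- **(G) from the base case.** -/
theorem globalDuality_of_steps (hepi : pkg.StepEpi) (hmono : pkg.StepMono)
    (hbase : pkg.BaseCase) : pkg.GlobalDuality := by
  have e : ∀ M : Rep.{0, 0, 0} (ZMod p) GQ, IsAdm p S M →
      Function.Surjective (pkg.pairing M) := by
    intro M hM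
    obtain ⟨L, hL, h⟩ := hepi M hM
    exact h (hbase L hL).2
  intro M hM
  obtain ⟨L, hL, K, hK, h⟩ := hmono M hM
  exact ⟨h (hbase L hL).1 (e K hK), e M hM⟩

/-- **S55 from (G), (LC), (BR).** -/
theorem s55_of_globalDuality (hDA : DualAdmStatement p S) (hbr : pkg.Bridge)
    (hlc : pkg.LocalCriterion) (hG : pkg.GlobalDuality)
    (M : Rep.{0, 0, 0} (ZMod p) GQ) (hM : IsAdm p S M) :
    ∃ B : sha₁ S (M.dualTwist (cycloChar p)) →ₗ[ZMod p] sha₂ S M →ₗ[ZMod p] ZMod p,
      (∀ y, (∀ x, B y x = 0) → y = 0) ∧ (∀ x, (∀ y, B y x = 0) → x = 0) := by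
  have hM' : IsAdm p S (D p M) := hDA M hM
  have hb := hbr (D p M) hM'
  exact exists_pairing_of_bijective (k := ZMod p) (pkg.pairing M) (hG M hM) (pkg.loc0 (D p M))
    (pkg.toH1 (D p M)) hb.1 (sha₁ S (D p M)) hb.2 (sha₂ S M) (hlc M hM)

end RPackage

/-- **THE TOP CHAIN (Route R)**: S55 from the package conclusions. -/
theorem s55_of_leaves_R (pkg : RPackage p S)
    (hDA : DualAdmStatement p S) (hbr : pkg.Bridge) (hlc : pkg.LocalCriterion)
    (hepi : pkg.StepEpi) (hmono : pkg.StepMono) (hbase : pkg.BaseCase)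
    (M : Rep (ZMod p) (AlgebraicClosure ℚ ≃ₐ[ℚ] AlgebraicClosure ℚ))
    [FiniteDimensional (ZMod p) M]
    (hsm : ∀ m : M, ∃ F : IntermediateField ℚ (AlgebraicClosure ℚ), FiniteDimensional ℚ F ∧
      ∀ s ∈ F.fixingSubgroup, M.ρ s m = m)
    (hMur : ∀ q : Nat.Primes, q ∉ S → ∀ A : ValuationSubring (AlgebraicClosure ℚ),
      A.LiesOverPrime (q : ℕ) → ∀ g ∈ A.inertiaSubgroupIn ℚ, M.ρ g = 1) :
    ∃ B : sha₁ S (M.dualTwist (cycloChar p)) →ₗ[ZMod p] sha₂ S M →ₗ[ZMod p] ZMod p,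
      (∀ y, (∀ x, B y x = 0) → y = 0) ∧ (∀ x, (∀ y, B y x = 0) → x = 0) :=
  pkg.s55_of_globalDuality hDA hbr hlc (pkg.globalDuality_of_steps hepi hmono hbase) M
    ⟨inferInstance, hsm, hMur⟩

end PackageR

end Fermat.Agent.S55.H70
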