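/-
Program C (S55), package C9b (helper70): THE EXPORTS, in the exact shapes of the consumers.

From the per-field theorem `GSArith.main` (K1)–(K4) and three bridge leaves:

* `h3CoindStatement_of` : helper12's `H12.H3CoindStatement p S` (the arithmetic leaf of (CD))
  from (K1) + `ShapiroInj3Statement` (Shapiro in degree 3, injectivity, trivial coefficients);
* `exStatement_of` / `hasseStatement_of` : helper87's `ExStatement pkg`, `HasseStatement p S c`
  (leaves of the base case) from (K3), (K4) + `FieldFormBridge` (semi-local Shapiro in degree 2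
  with invariants: helper87's `FieldForm` realised on `H²_lc(G_S(L), μ_p)` with the invariants
  of C9b) + `H1BoundStatement` (the injection `H¹_lc(G_S(L), E_S)[p] ↪ V_S/(E_S·Lˣᵖ)`).
-/
import Fermat.Agent.S55.H70.GSCoh
import Fermat.Agent.S55.H12.CDDefs
import Fermat.Agent.S55.H87.FieldForm

set_option autoImplicit false

open CategoryTheory Module groupCohomology ExtCitation

noncomputable section

namespace Fermat.Agent.S55.H70

open Fermat.Agent.S55

variable {p : ℕ} [Fact p.Prime] {S : Finset Nat.Primes} (hpS : ExtCitation.pPrime p ∈ S)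
  {T : Type} [AddCommGroup T]

/-! ### (X-CD) -/

/-- (SH-inj-3, leaf of the sub-package SH) Shapiro in degree 3, injectivity: for a finite
extension `E` of `ℚ` unramified outside `S` containing `μ_p` there is an injective additive map
`H³(G_S, Coind_{G_E} 𝔽_p) → H³_lc(G_S(E), μ_p)` (restriction to `G_E`, evaluation at `1`, and
`𝔽_p ≅ μ_p` over `G_E`). -/
def ShapiroInj3Statement (p : ℕ) [Fact p.Prime] (S : Finset Nat.Primes) : Prop :=
  ∀ E : IntermediateField ℚ (AlgebraicClosure ℚ), E.IsUnramifiedOutside S →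
    (∀ ζ : AlgebraicClosure ℚ, ζ ^ p = 1 → ζ ∈ E) →
    ∃ f : H49.HS S (H12.coindTriv p E) 3 →+ HMu p S E 3, Function.Injective f

/-- The arithmetic input of C9b: for every finite extension `E` of `ℚ` unramified outside `S`
and containing `μ_p`, a `GSArith` with the arithmetic leaves. -/
def ArithStatement (p : ℕ) [Fact p.Prime] (S : Finset Nat.Primes) (T : Type) [AddCommGroup T] :
    Prop :=
  ∀ E : IntermediateField ℚ (AlgebraicClosure ℚ), E.IsUnramifiedOutside S →
    (∀ ζ : AlgebraicClosure ℚ, ζ ^ p = 1 → ζ ∈ E) → ∃ A : GSArith S E T, A.Good p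

include hpS in
/-- **(X-CD)**: helper12's arithmetic leaf of (CD). -/
theorem h3CoindStatement_of (hSh : ShapiroInj3Statement p S) (hA : ArithStatement p S T) :
    H12.H3CoindStatement p S := by
  intro E hE hμ x
  obtain ⟨f, hf⟩ := hSh E hE hμ
  obtain ⟨A, hAg⟩ := hA E hE hμ
  exact hf (((A.main hpS hAg).1 (f x)).trans (map_zero f).symm)

/-! ### (X-EX), (X-HASSE) -/

/-- (leaf of the sub-packages SH + LOC) helper87's `FieldForm` of the base module of the level
field `L`, realised on `H²_lc(G_S(L), μ_p)` with the invariants of C9b: `ι : 𝔽_p ↪ T`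
(`a ↦ a/p`), `H2L ≃ H²_lc(G_S(L), μ_p)`, `VL ≃` the places of `L` above `S`, and
`inv_w = ι ∘ invL w`. -/
def FieldFormBridge (pkg : RPackage p S) (L : IntermediateField ℚ (AlgebraicClosure ℚ))
    (A : GSArith S L T) : Prop :=
  ∃ (ff : H87.FieldForm pkg L) (ι : ZMod p →+ T) (eH : ff.H2L ≃+ HMu p S L 2) (eV : ff.VL ≃ A.VS),
    Function.Injective ι ∧ ∀ w x, A.invMu hpS (eV w) (eH x) = ι (ff.invL w x)

/-- (L2-H1) The `p`-torsion of `H¹_lc(G_S(L), E_S)` injects into a finite set with at most
`p ^ c` elements (`V_S(L)/(E_S(L)·Lˣᵖ)`, `c = H87.cNum p S L`). -/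
def H1BoundStatement (p : ℕ) (S : Finset Nat.Primes)
    (L : IntermediateField ℚ (AlgebraicClosure ℚ)) (c : ℕ) : Prop :=
  ∃ (W : Type) (_ : Finite W) (ι : {a : HE S L 1 // p • a = 0} → W),
    Function.Injective ι ∧ Nat.card W ≤ p ^ c

/-- The leaves of C9b over one level field `L`. -/
def LevelLeaves (pkg : RPackage p S) (c : IntermediateField ℚ (AlgebraicClosure ℚ) → ℕ)
    (L : IntermediateField ℚ (AlgebraicClosure ℚ)) : Prop :=
  ∃ A : GSArith S L T, A.Good p ∧ FieldFormBridge hpS pkg L A ∧ H1BoundStatement p S L (c L)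

theorem exists_fieldForm_of {pkg : RPackage p S}
    {c : IntermediateField ℚ (AlgebraicClosure ℚ) → ℕ}
    {L : IntermediateField ℚ (AlgebraicClosure ℚ)} (h : LevelLeaves (T := T) hpS pkg c L) :
    ∃ ff : H87.FieldForm pkg L, ff.Existence ∧ ff.Hasse (c L) := by
  obtain ⟨A, hAg, ⟨ff, ι, eH, eV, hι, hinv⟩, W, hW, j, hj, hcard⟩ := h
  obtain ⟨-, -, k3, k4⟩ := A.main hpS hAg
  have hp0 : ∀ a : ZMod p, p • a = 0 := fun a => by
    rw [nsmul_eq_mul, ZMod.natCast_self, zero_mul]
  refine ⟨ff, ?_, ?_⟩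
  · intro s hs
    obtain ⟨x', hx'⟩ := k3 (fun v => ι (s (eV.symm v)))
      (fun v => by rw [← map_nsmul, hp0, map_zero])
      (by rw [← map_sum, Equiv.sum_comp eV.symm s, hs, map_zero])
    refine ⟨eH.symm x', fun w => hι ?_⟩
    rw [← hinv, AddEquiv.apply_symm_apply, hx', Equiv.symm_apply_apply]
  · refine ⟨HE S L 1, inferInstance, eH.symm.toAddMonoidHom.comp (kuD1 hpS L), ?_,
      fun a => H74.hlc_torsion _ (H42.fieldDatum_finiteIndex S L) _ 1 le_rfl a,
      W, hW, j, hj, hcard⟩
    intro x hx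
    obtain ⟨e, he⟩ := k4 (eH x) fun v => by
      have := hinv (eV.symm v) x
      rw [Equiv.apply_symm_apply, hx, map_zero] at this
      exact this
    refine ⟨e, ?_⟩
    show eH.symm (kuD1 hpS L e) = x
    rw [he, AddEquiv.symm_apply_apply]

/-- **(X-EX)**: helper87's leaf `ExStatement pkg`. -/
theorem exStatement_of (pkg : RPackage p S) (c : IntermediateField ℚ (AlgebraicClosure ℚ) → ℕ)
    (h : ∀ L : IntermediateField ℚ (AlgebraicClosure ℚ), IsLevelField p S L →
      LevelLeaves (T := T) hpS pkg c L) : H87.ExStatement pkg :=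
  H87.exStatement_of_fieldForm pkg fun L hL => by
    obtain ⟨ff, h1, -⟩ := exists_fieldForm_of hpS (h L hL)
    exact ⟨ff, h1⟩

/-- **(X-HASSE)**: helper87's leaf `HasseStatement p S c`. -/
theorem hasseStatement_of (pkg : RPackage p S)
    (c : IntermediateField ℚ (AlgebraicClosure ℚ) → ℕ)
    (h : ∀ L : IntermediateField ℚ (AlgebraicClosure ℚ), IsLevelField p S L →
      LevelLeaves (T := T) hpS pkg c L) : H87.HasseStatement p S c :=
  H87.hasseStatement_of_fieldForm pkg c fun L hL => by
    obtain ⟨ff, -, h2⟩ := exists_fieldForm_of hpS (h L hL)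
    exact ⟨ff, h2⟩

end Fermat.Agent.S55.H70
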