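/-
Program C (S55), package C9b (helper70): the leaves of `GSFinal` that are CLOSED by landed work.

* `pPartStatement p` : `PPartStatement p` (helper63's `H63.pPart`);
* `cycTowerStatement hp2 hpS` : `CycTowerStatement p S` (helper32's layers of the cyclotomic
  `ℤ_p`-extension inside `ℚ_S`, with growing local degrees);
* `inflCompatStatement` : `H29.InflCompatStatement` (helper83 + helper20);
* `finInvPStatement_of_c8` : the arithmetic input of C9b from the four remaining inputs
  (B1) `HassePStatement NFLayer p`, (B2) `RecStatement NFLayer p`, (B3) `CyclicExStatement p`,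
  (B4) `H3QSStatement p S`, and (L2-P + HLAM) `LamStatement p S (H63.pPart p)`.
-/
import Fermat.Agent.S55.H70.GSFinal
import Fermat.Agent.S55.H63.PPart
import Fermat.Agent.S55.H32.CycGrowthQbar
import Fermat.Agent.S55.H83.LayerCompatFinal

set_option autoImplicit false

open CategoryTheory

noncomputable section

namespace Fermat.Agent.S55.H70

open Fermat.Agent.S55 Fermat.Agent.S55.H23

local notation "Qb" => AlgebraicClosure ℚ

attribute [local instance] H88.factOfPrimes

variable {p : ℕ} [Fact p.Prime] {S : Finset Nat.Primes}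

/-- **(PP)** closed: the `p`-primary projector of `ℚ/ℤ`. -/
theorem pPartStatement (p : ℕ) [hp : Fact p.Prime] : PPartStatement p :=
  ⟨fun a ha => H63.qz_hdiv p hp.out.ne_zero a ha, H63.pPart p,
    fun _ ht => H63.pPartOf_of_isPPrimary hp.out H63.qz_torsion ht,
    fun _ _ hm ht => H63.pPartOf_eq_zero hp.out H63.qz_torsion hm ht⟩

/-- **(X0)** closed: inflation preserves the local invariants. -/
theorem inflCompatStatement : H29.InflCompatStatement := by
  intro k K K' _ _ _ _ _ _ _ _ _ _ _ _
  exact H83.inflCompat k K K'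

/-- **(CYC-TOWER)** closed: the layers of the cyclotomic `ℤ_p`-extension. -/
theorem cycTowerStatement (hp2 : p ≠ 2) (hpS : ExtCitation.pPrime p ∈ S) :
    CycTowerStatement p S := by
  classical
  intro F hF _ W c
  obtain ⟨a, E, h, hgal, hunr, hcyc, hdeg, hdvd⟩ :=
    H32.exists_cyclic_layer_unramified_pow_dvd_locDegAt p hp2 hpS F hF (W.image fun v => v.1) c
  have e : (IntermediateField.extendScalars h).restrictScalars ℚ = E :=
    IntermediateField.extendScalars_restrictScalars h
  refine ⟨⟨IntermediateField.extendScalars h, inferInstance, ?_⟩, hcyc, ⟨a, hdeg⟩, fun v hv => ?_⟩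
  · rw [e]
    exact hunr
  · exact hdvd v (Finset.mem_image_of_mem _ hv)

/-- The final assembly of the arithmetic input of C9b, for a given `p`-primary projector. -/
theorem finInvPStatement_of_leaves' (hp2 : p ≠ 2)
    (hdiv : ∀ a : H66.QZ, IsPPrimary p a → ∃ a' : H66.QZ, IsPPrimary p a' ∧ p • a' = a)
    (pp : H66.QZ →+ H66.QZ) (hpp1 : ∀ t, IsPPrimary p t → pp t = t)
    (hpp2 : ∀ (t : H66.QZ) (m : ℕ), ¬ p ∣ m → m • t = 0 → pp t = 0)
    (hInfl : H29.InflCompatStatement)
    (hHasse : H29.HassePStatement H29.NFLayer p)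
    (hRec : H29.RecStatement H29.NFLayer p)
    (hEx : H29.CyclicExStatement p)
    (hCyc : CycTowerStatement p S)
    (hH3 : H3QSStatement p S)
    (hSne : S.Nonempty)
    (hLam : LamStatement p S pp) :
    FinInvPStatement p S H66.QZ := by
  intro F hF hμ
  obtain ⟨lam, hPa, hPb, hPbfin, hlam⟩ := hLam F hF hμ
  haveI := numberField_of_unr hF
  have hpr : p.Prime := Fact.out
  refine ⟨finalInv S F hF pp lam, ?_⟩
  refine
    { hdiv := hdiv
      VSne := sPlaces_nonempty hSne F
      pp_id := hpp1
      pp_kill := hpp2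
      compat := fun L L' h v a => compat_layer hInfl hF L L' h v a
      hasse := fun L a ha h => hHasse _ (nfLayer_layer hF L) a ha h
      recip := ?_
      exist := ?_
      h3 := fun L a ha => hH3 F hF hμ L a ha
      hPa := hPa
      hPb := fun c hc h => hPb c hc fun v hv => h v (fun hv' => hv (H88.mem_sPlaces_iff.1 hv'))
      hPbfin := hPbfin
      hlam := fun v hv L a => hlam v (fun hv' => hv (H88.mem_sPlaces_iff.2 hv')) L a }
  · -- reciprocity
    intro L a ha W hW
    have h1 : ∑ᶠ v, (H88.layerOf ↥F ↥L.K).linv v a = 0 := hRec _ (nfLayer_layer hF L) a ha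
    rw [← h1]
    refine (finsum_eq_sum_of_support_subset _ ?_).symm
    intro v hv
    by_contra hvW
    exact hv (hW v hvW)
  · -- existence
    intro t W ht hW hsum
    classical
    choose kk hkk using ht
    obtain ⟨L, hcyc, hn, hdeg⟩ := hCyc F hF hμ W (W.sup kk)
    haveI := numberField_layer L
    haveI := hcyc
    have hζ : ∃ ζ : ↥F, IsPrimitiveRoot ζ p := by
      haveI : NeZero (p : Qb) := ⟨by exact_mod_cast hpr.ne_zero⟩
      haveI : NeZero p := ⟨hpr.ne_zero⟩
      obtain ⟨ζ, hζ⟩ := HasEnoughRootsOfUnity.exists_primitiveRoot Qb p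
      refine ⟨⟨ζ, hμ ζ hζ.pow_eq_one⟩, ?_⟩
      exact IsPrimitiveRoot.of_map_of_injective (f := algebraMap ↥F Qb)
        (hf := (algebraMap ↥F Qb).injective) hζ
    have hex := hEx hpr hp2 ↥F ↥L.K hζ hn
    have hfin : (Function.support t).Finite :=
      W.finite_toSet.subset fun v hv => by
        by_contra hvW
        exact hv (hW v hvW)
    have hd : ∀ v, H29.locDegAt ↥F ↥L.K v • t v = 0 := by
      intro v
      by_cases hv : v ∈ W
      · obtain ⟨m, hm⟩ := hdeg v hv
        obtain ⟨j, hj⟩ : p ^ kk v ∣ p ^ W.sup kk := pow_dvd_pow p (Finset.le_sup hv)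
        have e : H29.locDegAt ↥F ↥L.K v = (j * m) * p ^ kk v := by rw [hm, hj]; ring
        rw [e, mul_smul, hkk v, smul_zero]
      · rw [hW v hv, smul_zero]
    have hs : ∑ᶠ v, t v = 0 := by
      rw [finsum_eq_sum_of_support_subset t (s := W) (fun v hv => by
        by_contra hvW
        exact hv (hW v hvW))]
      exact hsum
    obtain ⟨α, hα⟩ := hex t hfin hd hs
    refine ⟨L, α, ?_, hα⟩
    obtain ⟨n, hn⟩ := hn
    refine ⟨n, ?_⟩
    have hc := H80.card_smul_eq_zero (Rep.ofAlgebraAutOnUnits ↥F ↥L.K) 2 (Or.inr rfl) α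
    rw [IsGalois.card_aut_eq_finrank, hn] at hc
    exact hc

/-- The arithmetic input of C9b from C8's exports (B1)–(B4) and (L2-P + HLAM). -/
theorem finInvPStatement_of_c8 (hp2 : p ≠ 2) (hpS : ExtCitation.pPrime p ∈ S)
    (hHasse : H29.HassePStatement H29.NFLayer p)
    (hRec : H29.RecStatement H29.NFLayer p)
    (hEx : H29.CyclicExStatement p)
    (hH3 : H3QSStatement p S)
    (hLam : LamStatement p S (H63.pPart p)) :
    FinInvPStatement p S H66.QZ := by
  obtain ⟨hdiv, -⟩ := pPartStatement p
  refine finInvPStatement_of_leaves' hp2 hdiv (H63.pPart p) ?_ ?_ inflCompatStatement hHasse hRec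
    hEx (cycTowerStatement hp2 hpS) hH3 ⟨_, hpS⟩ hLam
  · exact fun _ ht => H63.pPartOf_of_isPPrimary Fact.out H63.qz_torsion ht
  · exact fun _ _ hm ht => H63.pPartOf_eq_zero Fact.out H63.qz_torsion hm ht

end Fermat.Agent.S55.H70
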