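/-
Program C (S55), package C9b (helper70): C8's exports (B1)–(B3) plugged in.

Everything of C8 parts 1–2 that is on main is assembled here:

* `recStatement_of_cycloRec`     : (B2) `RecStatement NFLayer p` from the one remaining leaf
  `H29.CycloRecStatement p` (reciprocity in cyclic cyclotomic layers);
* `cyclicExStatement_of_cycloRec` : (B3) `CyclicExStatement p` from the same leaf;
* `arithStatement_of_three`       : `ArithStatement p S ℚ/ℤ` (C9b) from exactly three open inputs:
  `H29.CycloRecStatement p`, `H3QSStatement p S` (B4), `LamStatement p S (H63.pPart p)` (L2-P).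
-/
import Fermat.Agent.S55.H70.GSClosed
import Fermat.Agent.S55.H52.C8HasseFinal
import Fermat.Agent.S55.H94.RecAsm
import Fermat.Agent.S55.H94.Compositum
import Fermat.Agent.S55.H51.CycloExists
import Fermat.Agent.S55.H28.LinvFinStatement
import Fermat.Agent.S55.H79.LocDeg
import Fermat.Agent.S55.H79.SumLocDeg
import Fermat.Agent.S55.H35.C8ExCyclic
import Fermat.Agent.S55.H50.ExPrime
import Fermat.Agent.S55.H85.LocSym
import Fermat.Agent.S55.H8.UnitNorm
import Fermat.Agent.S55.H52.FullPlace
import Fermat.Agent.S55.H4.ResLiftFinal
import Fermat.Agent.S55.H55.PresSurj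

set_option autoImplicit false

noncomputable section

namespace Fermat.Agent.S55.H70

open Fermat.Agent.S55

variable {p : ℕ} [Fact p.Prime] {S : Finset Nat.Primes}

/-- **(B2)** reciprocity for the `p`-primary classes of all Galois layers of number fields, from
reciprocity in cyclic cyclotomic layers. -/
theorem recStatement_of_cycloRec (hp2 : p ≠ 2) (hCR : H29.CycloRecStatement p) :
    H29.RecStatement H29.NFLayer p :=
  H94.recStatement_of_leaves Fact.out hp2 (H52.hassePStatement Fact.out hp2) hCR
    (H51.cycloLayerExists p) H94.compositumStatement H28.linvFinStatement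
    H52.inflCompatStatement H52.subCompatStatement H52.quotInfCompatStatement
    H94.towerInfResStatement H79.subH2InjStatement H79.locDegQuotStatement

/-- **(B3)** existence for cyclic layers of `p`-power degree, from the same leaf. -/
theorem cyclicExStatement_of_cycloRec (hp2 : p ≠ 2) (hCR : H29.CycloRecStatement p) :
    H29.CyclicExStatement p :=
  have hRec := recStatement_of_cycloRec hp2 hCR
  H35.cyclicExStatement_of_leaves
    (H50.primeExStatement_of_leaves p H85.kummerLocalSymbolStatement H8.unitNormStatement
      H52.fullPlaceStatement hRec)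
    (H4.cyclicResLift_of_hasse p (H52.pGroupHasseStatement p))
    H52.subCompatStatement H52.quotInfCompatStatement H79.locDegMulStatement
    H79.locDegQuotStatement H79.belowStatement H79.sumLocDegStatement H28.linvFinStatement
    H55.subH2SurjStatement H55.quotH2SurjStatement hRec

/-- **The arithmetic input of C9b from three open inputs.** -/
theorem arithStatement_of_three (hp2 : p ≠ 2) (hpS : ExtCitation.pPrime p ∈ S)
    (hCR : H29.CycloRecStatement p) (hH3 : H3QSStatement p S)
    (hLam : LamStatement p S (H63.pPart p)) : ArithStatement p S H66.QZ :=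
  arithStatement_of_finInvP
    (finInvPStatement_of_c8 hp2 hpS (H52.hassePStatement Fact.out hp2)
      (recStatement_of_cycloRec hp2 hCR) (cyclicExStatement_of_cycloRec hp2 hCR) hH3 hLam)

end Fermat.Agent.S55.H70
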