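/-
Program C (S55), package C9b (helper70): THE CANONICAL ARITHMETIC DATA OF A LEVEL FIELD, the exact
statement of the bridge (C), and the frozen conclusion of S55 from FIVE open Props.

* `LamSpec p S pp F lam` : the four clauses of `LamStatement` for a given `lam`;
* `finalInv_good` : `(finalInv S F hF (H63.pPart p) lam).Good p` from `H29.CycloRecStatement p`,
  `H3QSStatement p S` and `LamSpec` (everything else plugged in);
* `finalInv_inv_inflK` : the invariants of `finalInv` on inflated classes (needs only closed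
  leaves): `inv v (inflK a) = pPart (linv v a)`;
* `BridgeStatement p S hpS ζ₀` : the bridge (C) for the canonical data (any `lam`);
* `s55_of_five` : the conclusion of the frozen S55 from
  (i) `H29.CycloRecStatement p`, (ii) `H3QSStatement p S`, (iii) `LamStatement p S (H63.pPart p)`,
  (iv) reciprocity over `ℚ` (RECQ), (v) `BridgeStatement`.
-/
import Fermat.Agent.S55.H70.GSC8
import Fermat.Agent.S55.H87.IsoPlug

set_option autoImplicit false

open CategoryTheory Module groupCohomology ExtCitation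

noncomputable section

namespace Fermat.Agent.S55.H70

open Fermat.Agent.S55 Fermat.Agent.S55.H23

local notation "Qb" => AlgebraicClosure ℚ

attribute [local instance] H88.factOfPrimes

variable {p : ℕ} [Fact p.Prime] {S : Finset Nat.Primes}

/-- The four clauses of `LamStatement` for a given family `lam`. -/
def LamSpec (p : ℕ) (S : Finset Nat.Primes) (pp : H66.QZ →+ H66.QZ)
    (F : IntermediateField ℚ Qb) (lam : H88.FinPlace ↥F → HP S F 2 →+ H66.QZ) : Prop :=
  (∀ c : HP S F 1, IsPPrimary p c → c = 0) ∧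
  (∀ c : HP S F 2, IsPPrimary p c → (∀ v : H88.FinPlace ↥F, v.1 ∉ S → lam v c = 0) → c = 0) ∧
  (∀ c : HP S F 2, ∃ W : Finset (H88.FinPlace ↥F), ∀ v, v ∉ W → lam v c = 0) ∧
  ∀ v : H88.FinPlace ↥F, v.1 ∉ S → ∀ (L : H74.QSLayer S F)
    (a : groupCohomology (Rep.ofAlgebraAutOnUnits ↥F ↥L.K) 2),
    lam v (gsPi2 F (H74.inflK S F L.K L.unr 2 a)) = pp ((H88.layerOf ↥F ↥L.K).linv v a)

theorem lamStatement_iff (pp : H66.QZ →+ H66.QZ) :
    LamStatement p S pp ↔ ∀ (F : IntermediateField ℚ Qb), F.IsUnramifiedOutside S →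
      (∀ ζ : Qb, ζ ^ p = 1 → ζ ∈ F) → ∃ lam, LamSpec p S pp F lam :=
  Iff.rfl

/-- **The canonical finite-level data are good**, from the three open inputs of C9b. -/
theorem finalInv_good (hp2 : p ≠ 2) (hpS : ExtCitation.pPrime p ∈ S)
    (hCR : H29.CycloRecStatement p) (hH3 : H3QSStatement p S)
    {F : IntermediateField ℚ Qb} (hF : F.IsUnramifiedOutside S)
    (hμ : ∀ ζ : Qb, ζ ^ p = 1 → ζ ∈ F) (lam : H88.FinPlace ↥F → HP S F 2 →+ H66.QZ)
    (hl : LamSpec p S (H63.pPart p) F lam) :
    (finalInv S F hF (H63.pPart p) lam).Good p := by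
  obtain ⟨hdiv, -⟩ := pPartStatement p
  have hpp1 : ∀ t, IsPPrimary p t → H63.pPart p t = t :=
    fun _ ht => H63.pPartOf_of_isPPrimary Fact.out H63.qz_torsion ht
  have hpp2 : ∀ (t : H66.QZ) (m : ℕ), ¬ p ∣ m → m • t = 0 → H63.pPart p t = 0 :=
    fun _ _ hm ht => H63.pPartOf_eq_zero Fact.out H63.qz_torsion hm ht
  have hInfl : H29.InflCompatStatement := inflCompatStatement
  have hHasse : H29.HassePStatement H29.NFLayer p := H52.hassePStatement Fact.out hp2
  have hRec : H29.RecStatement H29.NFLayer p := recStatement_of_cycloRec hp2 hCR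
  have hEx : H29.CyclicExStatement p := cyclicExStatement_of_cycloRec hp2 hCR
  have hCyc : CycTowerStatement p S := cycTowerStatement hp2 hpS
  have hSne : S.Nonempty := ⟨_, hpS⟩
  obtain ⟨hPa, hPb, hPbfin, hlam⟩ := hl
  generalize H63.pPart p = pp at *
  haveI := numberField_of_unr hF
  have hpr : p.Prime := Fact.out
  refine
    { hdiv := hdiv
      VSne := sPlaces_nonempty hSne F
      pp_id := hpp1
      pp_kill := hpp2
      compat := fun L L' h v a => compat_layer hInfl hF L L' h v a
      hasse := fun L a ha h => hHasse _ (nfLayer_layer hF L) a ha h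
      recip := ?_
      exist := ?_
      h3 := fun L a ha => hH3 F hF hμ L a ha
      hPa := hPa
      hPb := fun c hc h => hPb c hc fun v hv => h v (fun hv' => hv (H88.mem_sPlaces_iff.1 hv'))
      hPbfin := hPbfin
      hlam := fun v hv L a => hlam v (fun hv' => hv (H88.mem_sPlaces_iff.2 hv')) L a }
  · -- reciprocity
    intro L a ha W hW
    have h1 : ∑ᶠ v, (H88.layerOf ↥F ↥L.K).linv v a = 0 := hRec _ (nfLayer_layer hF L) a ha
    rw [← h1]
    refine (finsum_eq_sum_of_support_subset _ ?_).symm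
    intro v hv
    by_contra hvW
    exact hv (hW v hvW)
  · -- existence
    intro t W ht hW hsum
    classical
    choose kk hkk using ht
    obtain ⟨L, hcyc, hn, hdeg⟩ := hCyc F hF hμ W (W.sup kk)
    haveI := numberField_layer L
    haveI := hcyc
    have hζ : ∃ ζ : ↥F, IsPrimitiveRoot ζ p := by
      haveI : NeZero (p : Qb) := ⟨by exact_mod_cast hpr.ne_zero⟩
      haveI : NeZero p := ⟨hpr.ne_zero⟩
      obtain ⟨ζ, hζ⟩ := HasEnoughRootsOfUnity.exists_primitiveRoot Qb p
      refine ⟨⟨ζ, hμ ζ hζ.pow_eq_one⟩, ?_⟩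
      exact IsPrimitiveRoot.of_map_of_injective (f := algebraMap ↥F Qb)
        (hf := (algebraMap ↥F Qb).injective) hζ
    have hex := hEx hpr hp2 ↥F ↥L.K hζ hn
    have hfin : (Function.support t).Finite :=
      W.finite_toSet.subset fun v hv => by
        by_contra hvW
        exact hv (hW v hvW)
    have hd : ∀ v, H29.locDegAt ↥F ↥L.K v • t v = 0 := by
      intro v
      by_cases hv : v ∈ W
      · obtain ⟨m, hm⟩ := hdeg v hv
        obtain ⟨j, hj⟩ : p ^ kk v ∣ p ^ W.sup kk := pow_dvd_pow p (Finset.le_sup hv)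
        have e : H29.locDegAt ↥F ↥L.K v = (j * m) * p ^ kk v := by rw [hm, hj]; ring
        rw [e, mul_smul, hkk v, smul_zero]
      · rw [hW v hv, smul_zero]
    have hs : ∑ᶠ v, t v = 0 := by
      rw [finsum_eq_sum_of_support_subset t (s := W) (fun v hv => by
        by_contra hvW
        exact hv (hW v hvW))]
      exact hsum
    obtain ⟨α, hα⟩ := hex t hfin hd hs
    refine ⟨L, α, ?_, hα⟩
    obtain ⟨n, hn⟩ := hn
    refine ⟨n, ?_⟩
    have hc := H80.card_smul_eq_zero (Rep.ofAlgebraAutOnUnits ↥F ↥L.K) 2 (Or.inr rfl) α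
    rw [IsGalois.card_aut_eq_finrank, hn] at hc
    exact hc

/-- The invariants of the canonical data on inflated classes: `inv v (inflK a) = pp (linv v a)`
(only closed leaves are used). -/
theorem finalInv_inv_inflK {F : IntermediateField ℚ Qb} (hF : F.IsUnramifiedOutside S)
    (pp : H66.QZ →+ H66.QZ) (lam : H88.FinPlace ↥F → HP S F 2 →+ H66.QZ)
    (L : H74.QSLayer S F) (v : H88.FinPlace ↥F)
    (a : groupCohomology (Rep.ofAlgebraAutOnUnits ↥F ↥L.K) 2) :
    (finalInv S F hF pp lam).inv v (H74.inflK S F L.K L.unr 2 a) =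
      pp ((H88.layerOf ↥F ↥L.K).linv v a) := by
  have h : ∀ i j (hij : (finalInv S F hF pp lam).P2.le i j)
      (a : (finalInv S F hF pp lam).P2.A i),
      (finalInv S F hF pp lam).linv j v ((finalInv S F hF pp lam).P2.tr i j hij a) =
        (finalInv S F hF pp lam).linv i v a := fun i j hij a => by
    show pp ((H88.layerOf ↥F ↥j.K).linv v (H74.layerTr F hij 2 a)) =
      pp ((H88.layerOf ↥F ↥i.K).linv v a)
    rw [compat_layer inflCompatStatement hF i j hij v a]
  rw [FinInvP.inv, dif_pos h]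
  exact Classical.choose_spec ((finalInv S F hF pp lam).P2.desc
    (fun i => (finalInv S F hF pp lam).linv i v) h) L a

/-- **The bridge (C)** for the canonical arithmetic data of the level fields (any `lam`): helper87's
`FieldForm` of `F_L` for the package of `rpairing p S inv`, realised on `H²_lc(G_S(L), μ_p)` with
the invariants of `finalInv`. -/
def BridgeStatement (p : ℕ) [Fact p.Prime] (S : Finset Nat.Primes)
    (hpS : ExtCitation.pPrime p ∈ S) (ζ₀ : Qb) : Prop :=
  ∀ inv : H62.LocalInv p S, H26.IsLocalInvFamily p S ζ₀ inv →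
    ∀ (L : IntermediateField ℚ Qb) (hL : IsLevelField p S L)
      (lam : H88.FinPlace ↥L → HP S L 2 →+ H66.QZ),
      FieldFormBridge hpS (H43.rPackage S (H62.rpairing p S inv)) L
        (finalInv S L hL.1 (H63.pPart p) lam).toArith

/-- **The conclusion of the frozen S55 from the five open Props of Program C.** -/
theorem s55_of_five (hp2 : p ≠ 2) (hpS : ExtCitation.pPrime p ∈ S)
    (ζ₀ : Qb) (hζ₀ : IsPrimitiveRoot ζ₀ p)
    (hCR : H29.CycloRecStatement p) (hH3 : H3QSStatement p S)
    (hLam : LamStatement p S (H63.pPart p))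
    (hREC : ∀ inv : H62.LocalInv p S, H26.IsLocalInvFamily p S ζ₀ inv →
      H62.RECStatement p S inv)
    (hBr : BridgeStatement p S hpS ζ₀)
    (M : Rep (ZMod p) (AlgebraicClosure ℚ ≃ₐ[ℚ] AlgebraicClosure ℚ))
    [FiniteDimensional (ZMod p) M]
    (hsm : ∀ m : M, ∃ F : IntermediateField ℚ (AlgebraicClosure ℚ), FiniteDimensional ℚ F ∧
      ∀ s ∈ F.fixingSubgroup, M.ρ s m = m)
    (hMur : ∀ q : Nat.Primes, q ∉ S → ∀ A : ValuationSubring (AlgebraicClosure ℚ),
      A.LiesOverPrime (q : ℕ) → ∀ g ∈ A.inertiaSubgroupIn ℚ, M.ρ g = 1) :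
    ∃ B : sha₁ S (M.dualTwist (cycloChar p)) →ₗ[ZMod p] sha₂ S M →ₗ[ZMod p] ZMod p,
      (∀ y, (∀ x, B y x = 0) → y = 0) ∧ (∀ x, (∀ y, B y x = 0) → x = 0) :=
  H87.s55_of_arith_rec_bridge hp2 hpS ζ₀ hζ₀ (T := H66.QZ)
    (arithStatement_of_three hp2 hpS hCR hH3 hLam) hREC
    (fun inv hfam L hL => by
      obtain ⟨lam, hl⟩ := hLam L hL.1 hL.2.2
      exact ⟨(finalInv S L hL.1 (H63.pPart p) lam).toArith,
        (finalInv S L hL.1 (H63.pPart p) lam).good_toArith
          (finalInv_good hp2 hpS hCR hH3 hL.1 hL.2.2 lam hl),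
        hBr inv hfam L hL lam⟩) M hsm hMur

end Fermat.Agent.S55.H70
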