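/-
Program C (S55), helper70 (coordinator): THE FROZEN CONCLUSION OF S55 FROM THE TWO PROPS STILL OPEN.

Plugged in (all on main, unconditional): reciprocity in cyclic cyclotomic layers
(`H6.cycloRecStatement`), hence C8's (B1)–(B3); reciprocity over `ℚ` (RECQ,
`H23.RecQ.recStatement_of_family`); the bridge (C) (`H54.fieldFormBridge_holds`); C4, C9a, C10,
Shapiro (inside `H87.s55_of_arith_rec_bridge`).

Open:
* `H3QSStatement p S` (C8 export (B4): `p`-primary classes of `H³` of a layer inside `ℚ_S` die in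
  a bigger layer inside `ℚ_S`);
* `LamStatement p S (H63.pPart p)` (L2-P + HLAM: the invariants of `H²_lc(G_S(F), P_S)`).
-/
import Fermat.Agent.S55.H70.GSBridge
import Fermat.Agent.S55.H54.BridgeClosed
import Fermat.Agent.S55.H23.RecQFinal
import Fermat.Agent.S55.H6.RecCycloFinal

set_option autoImplicit false

open CategoryTheory Module groupCohomology ExtCitation

noncomputable section

namespace Fermat.Agent.S55.H70

open Fermat.Agent.S55

local notation "Qb" => AlgebraicClosure ℚ

variable {p : ℕ} [Fact p.Prime] {S : Finset Nat.Primes}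

/-- C9b's arithmetic input from the two open Props. -/
theorem arithStatement_of_two (hp2 : p ≠ 2) (hpS : pPrime p ∈ S)
    (hH3 : H3QSStatement p S) (hLam : LamStatement p S (H63.pPart p)) :
    ArithStatement p S H66.QZ :=
  arithStatement_of_three hp2 hpS (H6.cycloRecStatement p) hH3 hLam

/-- **The conclusion of the frozen S55 from the two Props of Program C still open.** -/
theorem s55_of_two (hp2 : p ≠ 2) (hpS : pPrime p ∈ S)
    (hH3 : H3QSStatement p S) (hLam : LamStatement p S (H63.pPart p))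
    (M : Rep (ZMod p) (AlgebraicClosure ℚ ≃ₐ[ℚ] AlgebraicClosure ℚ))
    [FiniteDimensional (ZMod p) M]
    (hsm : ∀ m : M, ∃ F : IntermediateField ℚ (AlgebraicClosure ℚ), FiniteDimensional ℚ F ∧
      ∀ s ∈ F.fixingSubgroup, M.ρ s m = m)
    (hMur : ∀ q : Nat.Primes, q ∉ S → ∀ A : ValuationSubring (AlgebraicClosure ℚ),
      A.LiesOverPrime (q : ℕ) → ∀ g ∈ A.inertiaSubgroupIn ℚ, M.ρ g = 1) :
    ∃ B : sha₁ S (M.dualTwist (cycloChar p)) →ₗ[ZMod p] sha₂ S M →ₗ[ZMod p] ZMod p,
      (∀ y, (∀ x, B y x = 0) → y = 0) ∧ (∀ x, (∀ y, B y x = 0) → x = 0) := by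
  have hpr : p.Prime := Fact.out
  haveI : NeZero (p : Qb) := ⟨by exact_mod_cast hpr.ne_zero⟩
  haveI : NeZero p := ⟨hpr.ne_zero⟩
  obtain ⟨ζ₀, hζ₀⟩ := HasEnoughRootsOfUnity.exists_primitiveRoot Qb p
  have hCR : H29.CycloRecStatement p := H6.cycloRecStatement p
  have hRec : H29.RecStatement H29.NFLayer p := recStatement_of_cycloRec hp2 hCR
  have hA : ArithStatement p S H66.QZ := arithStatement_of_three hp2 hpS hCR hH3 hLam
  have hH3S : H62.H3Statement p S :=
    H62.h3Statement_of_vanishing hpS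
      (H12.h3Vanishing_of_k1 hpS H99.shInj_three (H87.k1Statement_of_arith hpS hA))
  have hREC : ∀ inv : H62.LocalInv p S, H26.IsLocalInvFamily p S ζ₀ inv →
      H62.RECStatement p S inv := fun inv hfam =>
    H23.RecQ.recStatement_of_family hpS hζ₀.pow_eq_one hfam hRec
  refine H87.s55_of_arith_rec_bridge hp2 hpS ζ₀ hζ₀ (T := H66.QZ) hA hREC
    (fun inv hfam L hL => ?_) M hsm hMur
  obtain ⟨lam, hl⟩ := hLam L hL.1 hL.2.2
  have hI := finalInv_good hp2 hpS hCR hH3 hL.1 hL.2.2 lam hl
  exact ⟨(finalInv S L hL.1 (H63.pPart p) lam).toArith,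
    (finalInv S L hL.1 (H63.pPart p) lam).good_toArith hI,
    H54.fieldFormBridge_holds hp2 hpS ζ₀ hζ₀ inv hfam hH3S (hREC inv hfam) L hL
      (H63.pPart p) lam hI⟩

end Fermat.Agent.S55.H70
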