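/-
Program C (S55), helper70: the export (B4) of C8 in the consumer form of C9b, and the frozen
conclusion of S55 from `H29.LiftStatement p` (the assembly leaf of C8's class formation) and
`LamStatement`.

* `h3QSStatement_of_x5`   : helper29's `H29.X5Statement p` ⟹ `H3QSStatement p S`;
* `h3QSStatement_of_lift` : `H29.LiftStatement p` ⟹ `H3QSStatement p S`
  (`H29.h3Kill_of` with `H35.ideleH3`, `H76.x5_of_h3Kill`);
* `s55_of_lift_lam`       : S55 from `H29.LiftStatement p` and `LamStatement p S (H63.pPart p)`.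
-/
import Fermat.Agent.S55.H70.GSLast
import Fermat.Agent.S55.H76.CycloDegFinal
import Fermat.Agent.S55.H35.IdeleH3

set_option autoImplicit false

open CategoryTheory Module groupCohomology ExtCitation

noncomputable section

namespace Fermat.Agent.S55.H70

open Fermat.Agent.S55

local notation "Qb" => AlgebraicClosure ℚ

variable {p : ℕ} [Fact p.Prime] {S : Finset Nat.Primes}

/-- (B4) in the consumer form of C9b from helper29's export (X5). -/
theorem h3QSStatement_of_x5 (hp2 : p ≠ 2) (hpS : pPrime p ∈ S) (hX5 : H29.X5Statement p) :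
    H3QSStatement p S := by
  intro F hF hμ L x hx
  have hpr : p.Prime := Fact.out
  have hζ : ∃ ζ : ↥F, IsPrimitiveRoot ζ p := by
    haveI : NeZero (p : Qb) := ⟨by exact_mod_cast hpr.ne_zero⟩
    haveI : NeZero p := ⟨hpr.ne_zero⟩
    obtain ⟨ζ, hζ⟩ := HasEnoughRootsOfUnity.exists_primitiveRoot Qb p
    refine ⟨⟨ζ, hμ ζ hζ.pow_eq_one⟩, ?_⟩
    exact IsPrimitiveRoot.of_map_of_injective (f := algebraMap ↥F Qb)
      (hf := (algebraMap ↥F Qb).injective) hζ
  exact hX5 hpr hp2 S F ⟨pPrime p, hpS, rfl⟩ hF hζ L x hx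

/-- (B4) in the consumer form of C9b from the assembly leaf (LIFT) of C8's class formation. -/
theorem h3QSStatement_of_lift (hp2 : p ≠ 2) (hpS : pPrime p ∈ S) (hL : H29.LiftStatement p) :
    H3QSStatement p S :=
  h3QSStatement_of_x5 hp2 hpS
    (H76.x5_of_h3Kill (H29.h3Kill_of (fun k K _ _ _ _ _ _ => H35.ideleH3 k K) hL))

/-- **The conclusion of the frozen S55 from (LIFT) and (LAM).** -/
theorem s55_of_lift_lam (hp2 : p ≠ 2) (hpS : pPrime p ∈ S)
    (hL : H29.LiftStatement p) (hLam : LamStatement p S (H63.pPart p))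
    (M : Rep (ZMod p) (AlgebraicClosure ℚ ≃ₐ[ℚ] AlgebraicClosure ℚ))
    [FiniteDimensional (ZMod p) M]
    (hsm : ∀ m : M, ∃ F : IntermediateField ℚ (AlgebraicClosure ℚ), FiniteDimensional ℚ F ∧
      ∀ s ∈ F.fixingSubgroup, M.ρ s m = m)
    (hMur : ∀ q : Nat.Primes, q ∉ S → ∀ A : ValuationSubring (AlgebraicClosure ℚ),
      A.LiesOverPrime (q : ℕ) → ∀ g ∈ A.inertiaSubgroupIn ℚ, M.ρ g = 1) :
    ∃ B : sha₁ S (M.dualTwist (cycloChar p)) →ₗ[ZMod p] sha₂ S M →ₗ[ZMod p] ZMod p,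
      (∀ y, (∀ x, B y x = 0) → y = 0) ∧ (∀ x, (∀ y, B y x = 0) → x = 0) :=
  s55_of_two hp2 hpS (h3QSStatement_of_lift hp2 hpS hL) hLam M hsm hMur

end Fermat.Agent.S55.H70
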