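/-
Program C (S55), helper70: (B4) CLOSED — `H29.LiftStatement p` from the landed leaves of
`H29/C8Cls.lean`, and the frozen conclusion of S55 with NO open input.

`liftStatement hp2 : H29.LiftStatement p` = `H18.liftStatement_of` with
J-FIN (H41), J-INF (H16), J-RES (H4), DEG-SUM (H79), CLASS-INFRES (H83 + H13), CLASS-SYLOW (H4),
CLASS-H1 (H37), CYC-KER (H37, with J-ADM H52, J-DETECT H45), CLASS-CYC (H74, with CYC-H3 H65),
CLASS-PBOUND (H37), and (B2), (B3) (`recStatement_of_cycloRec`, `cyclicExStatement_of_cycloRec`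
with `H6.cycloRecStatement`).
-/
import Fermat.Agent.S55.H70.GSH3
import Fermat.Agent.S55.H18.C8Lift
import Fermat.Agent.S55.H41.JFin
import Fermat.Agent.S55.H16.JInf
import Fermat.Agent.S55.H4.JRes
import Fermat.Agent.S55.H83.ClassInfRes
import Fermat.Agent.S55.H13.ClassInv
import Fermat.Agent.S55.H4.ClassSylow
import Fermat.Agent.S55.H37.ClassH1U
import Fermat.Agent.S55.H37.CycKer
import Fermat.Agent.S55.H52.JAdm
import Fermat.Agent.S55.H45.JDetect
import Fermat.Agent.S55.H74.ClassCycEx
import Fermat.Agent.S55.H65.CycH3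
import Fermat.Agent.S55.H37.ClassPBound
import Fermat.Agent.S55.H11.LamStatement

set_option autoImplicit false

open CategoryTheory Module groupCohomology ExtCitation

noncomputable section

namespace Fermat.Agent.S55.H70

open Fermat.Agent.S55

variable {p : ℕ} [Fact p.Prime] {S : Finset Nat.Primes}

/-- **(B4), assembly leaf (LIFT), unconditional.** -/
theorem liftStatement (hp2 : p ≠ 2) : H29.LiftStatement p := by
  have hCR : H29.CycloRecStatement p := H6.cycloRecStatement p
  have hRec : H29.RecStatement H29.NFLayer p := recStatement_of_cycloRec hp2 hCR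
  have hEx : H29.CyclicExStatement p := cyclicExStatement_of_cycloRec hp2 hCR
  have hIR : H29.ClassInfResStatement := H83.classInfRes_of H13.classInvStatement
  have hH1 : H29.ClassH1Statement p := H37.classH1Statement p
  have hKer : H29.CycKerStatement p :=
    H37.cycKer_of p hEx H41.jFinStatement H52.jAdmStatement H45.jDetectStatement
  have hCyc : H29.ClassCycStatement p :=
    H74.classCyc_of_ex H65.cycH3Statement hKer hRec hEx H41.jFinStatement
  have hPB : H29.ClassPBoundStatement p := H37.classPBound_of p hCyc hH1 hIR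
  exact H18.liftStatement_of H41.jFinStatement H16.jInfStatement H4.jResStatement
    H79.sumLocDegStatement hIR H4.classSylowStatement hH1 hKer hCyc hPB hRec

/-- **(B4) in the consumer form of C9b, unconditional.** -/
theorem h3QSStatement (hp2 : p ≠ 2) (hpS : pPrime p ∈ S) : H3QSStatement p S :=
  h3QSStatement_of_lift hp2 hpS (liftStatement hp2)

/-- **(LAM), unconditional** (helper11 + helper56). -/
theorem lamStatement_pPart (hpS : pPrime p ∈ S) : LamStatement p S (H63.pPart p) :=
  H11.lamStatement hpS (H63.pPart p)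
    (fun _ ht => H63.pPartOf_of_isPPrimary Fact.out H63.qz_torsion ht)

/-- **The conclusion of the frozen S55, with no open input.** -/
theorem s55_closed (hp2 : p ≠ 2) (hpS : pPrime p ∈ S)
    (M : Rep (ZMod p) (AlgebraicClosure ℚ ≃ₐ[ℚ] AlgebraicClosure ℚ))
    [FiniteDimensional (ZMod p) M]
    (hsm : ∀ m : M, ∃ F : IntermediateField ℚ (AlgebraicClosure ℚ), FiniteDimensional ℚ F ∧
      ∀ s ∈ F.fixingSubgroup, M.ρ s m = m)
    (hMur : ∀ q : Nat.Primes, q ∉ S → ∀ A : ValuationSubring (AlgebraicClosure ℚ),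
      A.LiesOverPrime (q : ℕ) → ∀ g ∈ A.inertiaSubgroupIn ℚ, M.ρ g = 1) :
    ∃ B : sha₁ S (M.dualTwist (cycloChar p)) →ₗ[ZMod p] sha₂ S M →ₗ[ZMod p] ZMod p,
      (∀ y, (∀ x, B y x = 0) → y = 0) ∧ (∀ x, (∀ y, B y x = 0) → x = 0) :=
  s55_of_lift_lam hp2 hpS (liftStatement hp2) (lamStatement_pPart hpS) M hsm hMur

end Fermat.Agent.S55.H70
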