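/-
Program C (S55), package C9b (helper70): LAYER 2, the model of the arithmetic data.

* `presOfLevels D M n` : the finite-level presentation of `Hlc D M n` (helper74's `FiniteLevelH`):
  index = the normal "open" subgroups `U`, `A U = Hⁿ(G ⧸ U, M^U)`, transition = inflation.
* `FinInv S F T` / `FinInv.Good` : the RAW finite-level invariants `linv₀ U v` on
  `H²(Γ ⧸ U, (ℚ_S^×)^U)` (in the application: `(H88.layerOf F K_U).linv v` transported by the
  identification (ID-Q)), the projection `pp` to the `p`-primary component, and the arithmetic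
  leaves in finite-level form (C8 exports X1, X2, X4, X5 VERBATIM after transport; L2-P).
* `FinInv.toArith`, `FinInv.good_toArith` : the `GSArith` with invariants defined by DESCENT,
  and all its leaves.  Hence `arithStatement_of_finInv`.
-/
import Fermat.Agent.S55.H70.GSExports
import Fermat.Agent.S55.H74.FiniteLevelH

set_option autoImplicit false

open CategoryTheory

noncomputable section

namespace Fermat.Agent.S55.H70

open Fermat.Agent.S55 Fermat.Agent.S55.H23

/-- A normal subgroup containing the subgroup of a normal level. -/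
structure NOpen {G : Type} [Group G] (D : H49.LevelDatum G) where
  U : Subgroup G
  [normal : U.Normal]
  isOpen : H74.IsOpenN D U

attribute [instance] NOpen.normal

/-- The finite-level presentation of `Hlc D M n` (helper74). -/
def presOfLevels {G : Type} [Group G] (D : H49.LevelDatum G) (M : Rep.{0} ℤ G) (n : ℕ) :
    Pres (H49.Hlc D M n) where
  ι := NOpen D
  A i := groupCohomology (M.quotientToInvariants i.U) n
  le i j := j.U ≤ i.U
  tr i j h := (H74.inflQ M j.U i.U h n).toAddMonoidHom
  φ i := (H74.inflH D M i.U i.isOpen n).toAddMonoidHom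
  directed i j :=
    ⟨{ U := i.U ⊓ j.U, normal := Subgroup.normal_inf_normal _ _, isOpen := i.isOpen.inf j.isOpen },
      inf_le_left, inf_le_right⟩
  compat i j h a := H74.inflH_inflQ D M j.U i.U h j.isOpen i.isOpen n a
  surj x := by
    obtain ⟨F, hF, hN, h⟩ := H74.exists_level_forall_inflH_eq D M n x
    haveI := D.sub_normal hN
    exact ⟨{ U := D.sub F, isOpen := H74.isOpenN_sub D hF hN },
      h (D.sub F) (H74.isOpenN_sub D hF hN) le_rfl⟩
  ker i a ha := by
    obtain ⟨F, hF, hN, h⟩ := H74.exists_level_forall_inflQ_eq_zero D M i.U i.isOpen n a ha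
    haveI := D.sub_normal hN
    exact ⟨{ U := i.U ⊓ D.sub F, normal := Subgroup.normal_inf_normal _ _,
             isOpen := i.isOpen.inf (H74.isOpenN_sub D hF hN) },
      inf_le_left, h _ inf_le_left (i.isOpen.inf (H74.isOpenN_sub D hF hN)) inf_le_right⟩

variable {p : ℕ} [Fact p.Prime] {S : Finset Nat.Primes}
  {F : IntermediateField ℚ (AlgebraicClosure ℚ)} {T : Type} [AddCommGroup T]

/-- The finite-level presentation of `Hⁿ_lc(G_S(F), ℚ_S^×)`. -/
abbrev presQ (S : Finset Nat.Primes) (F : IntermediateField ℚ (AlgebraicClosure ℚ)) (n : ℕ) :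
    Pres (HQ S F n) :=
  presOfLevels (H42.fieldDatum S F) (H42.resF F (H42.QSx S)) n

/-- The raw finite-level arithmetic data for `F`: the places, the local invariants `linv₀ U v`
of the finite layers `K_U / F` (on `H²(Γ ⧸ U, (ℚ_S^×)^U)`), the projection `pp` of `T` to its
`p`-primary component, and the invariants `lam v` on `H²_lc(G_S(F), P_S)`. -/
structure FinInv (S : Finset Nat.Primes) (F : IntermediateField ℚ (AlgebraicClosure ℚ))
    (T : Type) [AddCommGroup T] where
  V : Type
  VS : Finset V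
  linv₀ : ∀ i : (presQ S F 2).ι, V → (presQ S F 2).A i →+ T
  pp : T →+ T
  lam : V → HP S F 2 →+ T

/-- The leaves for a `FinInv`, in finite-level form. -/
structure FinInv.Good (p : ℕ) (I : FinInv S F T) : Prop where
  hdiv : ∀ a : T, IsPPrimary p a → ∃ a' : T, IsPPrimary p a' ∧ p • a' = a
  VSne : I.VS.Nonempty
  /-- `pp` is the identity on `p`-primary elements … -/
  pp_id : ∀ t : T, IsPPrimary p t → I.pp t = t
  /-- … and kills the torsion prime to `p` -/
  pp_kill : ∀ (t : T) (m : ℕ), ¬ p ∣ m → m • t = 0 → I.pp t = 0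
  /-- inflation preserves the local invariants (C5 `inflOf … Compat` + (ID-Q) naturality) -/
  compat : ∀ i j (h : (presQ S F 2).le i j) v (a : (presQ S F 2).A i),
    I.linv₀ j v ((presQ S F 2).tr i j h a) = I.linv₀ i v a
  /-- C8 X1 -/
  hasse : ∀ i (a : (presQ S F 2).A i), IsPPrimary p a → (∀ v, I.linv₀ i v a = 0) → a = 0
  /-- C8 X2 -/
  recip : ∀ i (a : (presQ S F 2).A i), IsPPrimary p a → ∀ W : Finset I.V,
    (∀ v, v ∉ W → I.linv₀ i v a = 0) → ∑ v ∈ W, I.linv₀ i v a = 0
  /-- C8 X4 -/
  exist : ∀ (t : I.V → T) (W : Finset I.V), (∀ v, IsPPrimary p (t v)) → (∀ v, v ∉ W → t v = 0) →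
    ∑ v ∈ W, t v = 0 → ∃ i, ∃ a : (presQ S F 2).A i, IsPPrimary p a ∧ ∀ v, I.linv₀ i v a = t v
  /-- C8 X5 -/
  h3 : ∀ i (a : (presQ S F 3).A i), IsPPrimary p a →
    ∃ j, ∃ h : (presQ S F 3).le i j, (presQ S F 3).tr i j h a = 0
  /-- L2-P -/
  hPa : ∀ c : HP S F 1, IsPPrimary p c → c = 0
  hPb : ∀ c : HP S F 2, IsPPrimary p c → (∀ v, v ∉ I.VS → I.lam v c = 0) → c = 0
  hPbfin : ∀ c : HP S F 2, ∃ W : Finset I.V, ∀ v, v ∉ W → I.lam v c = 0
  hlam : ∀ v, v ∉ I.VS → ∀ i (a : (presQ S F 2).A i),
    I.lam v (gsPi2 F ((presQ S F 2).φ i a)) = I.pp (I.linv₀ i v a)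

namespace FinInv

variable (I : FinInv S F T)

/-- The finite-level invariants, projected to the `p`-primary component. -/
def linv (i : (presQ S F 2).ι) (v : I.V) : (presQ S F 2).A i →+ T := I.pp.comp (I.linv₀ i v)

open Classical in
/-- The invariant at `v` on `H²_lc(G_S(F), ℚ_S^×)`, by descent. -/
def inv (v : I.V) : HQ S F 2 →+ T :=
  if h : ∀ i j (hij : (presQ S F 2).le i j) (a : (presQ S F 2).A i),
      I.linv j v ((presQ S F 2).tr i j hij a) = I.linv i v a then
    Classical.choose ((presQ S F 2).desc (fun i => I.linv i v) h)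
  else 0

theorem inv_φ (hI : I.Good p) (i : (presQ S F 2).ι) (v : I.V) (a : (presQ S F 2).A i) :
    I.inv v ((presQ S F 2).φ i a) = I.linv i v a := by
  have h : ∀ i j (hij : (presQ S F 2).le i j) (a : (presQ S F 2).A i),
      I.linv j v ((presQ S F 2).tr i j hij a) = I.linv i v a := fun i j hij a => by
    show I.pp (I.linv₀ j v _) = I.pp (I.linv₀ i v a)
    rw [hI.compat]
  rw [inv, dif_pos h]
  exact Classical.choose_spec ((presQ S F 2).desc (fun i => I.linv i v) h) i a

/-- The `GSArith` of a `FinInv`. -/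
abbrev toArith : GSArith S F T where
  V := I.V
  VS := I.VS
  inv := I.inv
  lam := I.lam
  presQ2 := presQ S F 2
  presQ3 := presQ S F 3
  linv := I.linv

theorem good_toArith (hI : I.Good p) : I.toArith.Good p where
  hdiv := hI.hdiv
  VSne := hI.VSne
  inv_φ i v a := I.inv_φ hI i v a
  inv_pp v y m hm hmy := by
    obtain ⟨i, a, rfl⟩ := (presQ S F 2).surj y
    have h0 : (presQ S F 2).φ i (m • a) = 0 := by rw [map_nsmul]; exact hmy
    obtain ⟨j, h, hj⟩ := (presQ S F 2).ker i _ h0
    rw [map_nsmul] at hj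
    show I.inv v ((presQ S F 2).φ i a) = 0
    rw [← (presQ S F 2).compat i j h a, I.inv_φ hI]
    refine hI.pp_kill _ m hm ?_
    rw [← map_nsmul, hj, map_zero]
  hasse i a ha h := hI.hasse i a ha fun v => by
    have := h v
    rwa [show I.toArith.linv i v a = I.pp (I.linv₀ i v a) from rfl,
      hI.pp_id _ (Chase.pprim_map _ ha)] at this
  recip i a ha W h := by
    have h1 : ∀ v, I.toArith.linv i v a = I.linv₀ i v a := fun v =>
      hI.pp_id _ (Chase.pprim_map _ ha)
    have h2 := hI.recip i a ha W fun v hv => by rw [← h1, h v hv]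
    rw [← h2]
    exact Finset.sum_congr rfl fun v _ => h1 v
  exist t W ht hW hsum := by
    obtain ⟨i, a, ha, hv⟩ := hI.exist t W ht hW hsum
    exact ⟨i, a, ha, fun v => by
      show I.pp (I.linv₀ i v a) = t v
      rw [hv, hI.pp_id _ (ht v)]⟩
  h3 := hI.h3
  hPa := hI.hPa
  hPb := hI.hPb
  hPbfin := hI.hPbfin
  hlam v hv y := by
    obtain ⟨i, a, rfl⟩ := (presQ S F 2).surj y
    show I.lam v (gsPi2 F ((presQ S F 2).φ i a)) = I.inv v ((presQ S F 2).φ i a)
    rw [hI.hlam v hv, I.inv_φ hI]
    rfl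

end FinInv

/-- The arithmetic input of C9b in finite-level form. -/
def FinInvStatement (p : ℕ) [Fact p.Prime] (S : Finset Nat.Primes) (T : Type) [AddCommGroup T] :
    Prop :=
  ∀ E : IntermediateField ℚ (AlgebraicClosure ℚ), E.IsUnramifiedOutside S →
    (∀ ζ : AlgebraicClosure ℚ, ζ ^ p = 1 → ζ ∈ E) → ∃ I : FinInv S E T, I.Good p

theorem arithStatement_of_finInv (h : FinInvStatement p S T) : ArithStatement p S T :=
  fun E hE hμ => by
    obtain ⟨I, hI⟩ := h E hE hμ
    exact ⟨I.toArith, I.good_toArith hI⟩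

end Fermat.Agent.S55.H70
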