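/-
Program C (S55), package C9b (helper70): THE TOP OF PROGRAM C SEEN FROM C9b.

* `k1Statement_of_arith` : helper12's `H12.K1Statement p S` (the arithmetic leaf of (CD) and of
  `H62.H3Statement`) from `ArithStatement p S T`;
* `s55_of_arith` : the conclusion of the frozen S55 from
  - a family `inv` of local invariant maps with reciprocity (RECQ) and local injectivity (C4),
  - `ArithStatement p S T` (C9b: `finInvPStatement_of_leaves` of `GSFinal`),
  - the per-level-field leaves `LevelLeaves` ((C) `FieldFormBridge` + (D) `H1BoundStatement`),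
  - (COUNT) (C9a).
  Shapiro injectivity in degree 3 is `H99.shInj_three` (landed).
-/
import Fermat.Agent.S55.H70.GSFinal
import Fermat.Agent.S55.H70.GSExports
import Fermat.Agent.S55.H62.RFinal
import Fermat.Agent.S55.H99.Shapiro

set_option autoImplicit false

open CategoryTheory Module groupCohomology ExtCitation

noncomputable section

namespace Fermat.Agent.S55.H70

open Fermat.Agent.S55

variable {p : ℕ} [Fact p.Prime] {S : Finset Nat.Primes} {T : Type} [AddCommGroup T]

/-- **(K1)** in helper12's shape, from the arithmetic input of C9b. -/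
theorem k1Statement_of_arith (hpS : ExtCitation.pPrime p ∈ S) (hA : ArithStatement p S T) :
    H12.K1Statement p S := by
  intro E hE hμ x
  obtain ⟨A, hAg⟩ := hA E hE hμ
  exact (A.main hpS hAg).1 x

/-- **S55 from the leaves of C9b, (RECQ), C4's local injectivity, and (COUNT).** -/
theorem s55_of_arith (hp2 : p ≠ 2) (hpS : ExtCitation.pPrime p ∈ S) (inv : H62.LocalInv p S)
    (hREC : H62.RECStatement p S inv) (hL : H43.LocalInjP S inv)
    (hA : ArithStatement p S T)
    (c : IntermediateField ℚ (AlgebraicClosure ℚ) → ℕ)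
    (hLL : ∀ L : IntermediateField ℚ (AlgebraicClosure ℚ), IsLevelField p S L →
      LevelLeaves (T := T) hpS (H43.rPackage S (H62.rpairing p S inv)) c L)
    (hC : H87.CountStatement p S c)
    (M : Rep (ZMod p) (AlgebraicClosure ℚ ≃ₐ[ℚ] AlgebraicClosure ℚ))
    [FiniteDimensional (ZMod p) M]
    (hsm : ∀ m : M, ∃ F : IntermediateField ℚ (AlgebraicClosure ℚ), FiniteDimensional ℚ F ∧
      ∀ s ∈ F.fixingSubgroup, M.ρ s m = m)
    (hMur : ∀ q : Nat.Primes, q ∉ S → ∀ A : ValuationSubring (AlgebraicClosure ℚ),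
      A.LiesOverPrime (q : ℕ) → ∀ g ∈ A.inertiaSubgroupIn ℚ, M.ρ g = 1) :
    ∃ B : sha₁ S (M.dualTwist (cycloChar p)) →ₗ[ZMod p] sha₂ S M →ₗ[ZMod p] ZMod p,
      (∀ y, (∀ x, B y x = 0) → y = 0) ∧ (∀ x, (∀ y, B y x = 0) → x = 0) :=
  H62.s55_of_inv_k1 hp2 hpS inv H99.shInj_three (k1Statement_of_arith hpS hA) hREC hL
    (fun _ => exStatement_of hpS _ c hLL) c (hasseStatement_of hpS _ c hLL) hC M hsm hMur

end Fermat.Agent.S55.H70
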